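/-
S13, small piece (S) (helper64): stabilisers of points of `E(Qbar)` are open in the Krull
topology of `Gal(Qbar/ℚ)`.
-/
import Mathlib
import Fermat.Prelude.Def_FLTPrelim_GaloisRep
import Fermat.Prelude.Def_FLTPrelim_FreyPackage

set_option autoImplicit false

namespace Fermat.Agent.S13Open

open WeierstrassCurve WeierstrassCurve.Affine WeierstrassCurve.Affine.Point

/-- The stabiliser of finitely many algebraic elements is open in the Krull topology. -/
theorem isOpen_setOf_forall_mem_fix {k L : Type*} [Field k] [Field L] [Algebra k L]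
    [Algebra.IsAlgebraic k L] (s : Finset L) :
    IsOpen {σ : L ≃ₐ[k] L | ∀ a ∈ s, σ a = a} := by
  classical
  let E : IntermediateField k L := IntermediateField.adjoin k (s : Set L)
  have : FiniteDimensional k E :=
    IntermediateField.finiteDimensional_adjoin (fun a _ => (Algebra.IsAlgebraic.isAlgebraic a).isIntegral)
  have hopen : IsOpen (E.fixingSubgroup : Set (L ≃ₐ[k] L)) := E.fixingSubgroup_isOpen
  have heq : {σ : L ≃ₐ[k] L | ∀ a ∈ s, σ a = a} = (E.fixingSubgroup : Set (L ≃ₐ[k] L)) := by
    ext σ
    simp only [Set.mem_ofPred_eq, SetLike.mem_coe]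
    rw [IntermediateField.mem_fixingSubgroup_iff]
    constructor
    · intro h x hx
      -- `x ∈ adjoin k s`, and `σ` fixes `s` pointwise
      have hle : E ≤ IntermediateField.fixedField (Subgroup.zpowers σ) := by
        apply IntermediateField.adjoin_le_iff.mpr
        intro a ha
        rw [SetLike.mem_coe, IntermediateField.mem_fixedField_iff]
        intro τ hτ
        have hσ : σ • a = a := h a ha
        have hle' : Subgroup.zpowers σ ≤ MulAction.stabilizer (L ≃ₐ[k] L) a :=
          Subgroup.zpowers_le.mpr (MulAction.mem_stabilizer_iff.mpr hσ)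
        exact MulAction.mem_stabilizer_iff.mp (hle' hτ)
      have := hle hx
      rw [IntermediateField.mem_fixedField_iff] at this
      exact this σ (Subgroup.mem_zpowers σ)
    · intro h a ha
      exact h a (IntermediateField.subset_adjoin k _ ha)
  rw [heq]
  exact hopen

local notation "Qb" => AlgebraicClosure ℚ

/-- The stabiliser of a point of `E(Qbar)` is open in the Krull topology. -/
theorem isOpen_stabilizer_point (W' : Affine ℚ) (X : (W'⁄Qb).Point) :
    IsOpen {σ : Qb ≃ₐ[ℚ] Qb | σ • X = X} := by
  classical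
  have : Algebra.IsAlgebraic ℚ Qb := AlgebraicClosure.isAlgebraic ℚ
  rcases X with _ | ⟨a, b, h⟩
  · have : {σ : Qb ≃ₐ[ℚ] Qb | σ • (Point.zero : (W'⁄Qb).Point) = Point.zero} = Set.univ := by
      ext σ
      simp only [Set.mem_ofPred_eq, Set.mem_univ, iff_true]
      rfl
    rw [this]
    exact isOpen_univ
  · have : {σ : Qb ≃ₐ[ℚ] Qb | σ • (Point.some a b h : (W'⁄Qb).Point) = Point.some a b h}
        = {σ : Qb ≃ₐ[ℚ] Qb | ∀ c ∈ ({a, b} : Finset Qb), σ c = c} := by
      ext σ
      simp only [Set.mem_ofPred_eq, Finset.mem_insert, Finset.mem_singleton, forall_eq_or_imp,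
        forall_eq]
      rw [algEquiv_smul_def, Point.map_some]
      constructor
      · intro h'
        have := Point.some.inj h'
        exact this
      · rintro ⟨ha, hb⟩
        congr 1
    rw [this]
    exact isOpen_setOf_forall_mem_fix _

/-- **(S)** The stabiliser of a torsion point of the Frey curve is open in the Krull topology. -/
theorem isOpen_stabilizer_torsion (W' : Affine ℚ) (n : ℕ)
    (x : Submodule.torsionBy ℤ (W'⁄Qb).Point n) :
    IsOpen {σ : Qb ≃ₐ[ℚ] Qb | σ • x = x} := by
  have : {σ : Qb ≃ₐ[ℚ] Qb | σ • x = x}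
      = {σ : Qb ≃ₐ[ℚ] Qb | σ • (x : (W'⁄Qb).Point) = (x : (W'⁄Qb).Point)} := by
    ext σ
    simp only [Set.mem_ofPred_eq]
    constructor
    · intro h
      exact congrArg Subtype.val h
    · intro h
      exact Subtype.ext h
  rw [this]
  exact isOpen_stabilizer_point W' _

/-- Frey-curve form, exactly as needed by the final assembly (F). -/
theorem frey_isOpen_stabilizer (P : FreyPackage)
    (x : Submodule.torsionBy ℤ (P.freyCurve⁄Qb).Point P.p) :
    IsOpen {σ : Qb ≃ₐ[ℚ] Qb | σ • x = x} :=
  isOpen_stabilizer_torsion P.freyCurve P.p x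

end Fermat.Agent.S13Open
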