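/-
S13, piece (U2) (helper13): an element of the decomposition group of a valuation subring of an
algebraic extension preserves the valuation.
-/
import Mathlib
import Fermat.Agent.S05.H5.Inertia

set_option autoImplicit false

namespace Fermat.Agent.S13Two

open ValuationSubring S05H5

variable {K L : Type*} [Field K] [Field L] [Algebra K L]

/-- Elements of the decomposition group preserve strict inequalities between valuations. -/
theorem decomp_val_lt (A : ValuationSubring L) (σ : L ≃ₐ[K] L)
    (hσ : σ ∈ A.decompositionSubgroup K) {x y : L}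
    (h : A.valuation x < A.valuation y) : A.valuation (σ x) < A.valuation (σ y) := by
  have hy : y ≠ 0 := by
    rintro rfl
    rw [map_zero] at h
    exact absurd h (not_lt.2 zero_le)
  have hy0 : 0 < A.valuation y := (Valuation.pos_iff _).2 hy
  have hσy0 : 0 < A.valuation (σ y) := (Valuation.pos_iff _).2 (by simpa using hy)
  have h1 : x / y ∈ A.nonunits := by
    rw [A.mem_nonunits_iff, map_div₀, div_lt_one₀ hy0]
    exact h
  have h2 : σ (x / y) ∈ A.nonunits := (decomp_apply_mem_nonunits_iff A σ hσ).2 h1
  rwa [map_div₀, A.mem_nonunits_iff, map_div₀, div_lt_one₀ hσy0] at h2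

theorem decomp_pow_val_lt (A : ValuationSubring L) (σ : L ≃ₐ[K] L)
    (hσ : σ ∈ A.decompositionSubgroup K) {a : L}
    (h : A.valuation (σ a) < A.valuation a) (m : ℕ) :
    A.valuation ((σ ^ (m + 1)) a) < A.valuation a := by
  induction m with
  | zero => simpa using h
  | succ k ih =>
    have h1 : (σ ^ (k + 1 + 1)) a = (σ ^ (k + 1)) (σ a) := by
      rw [pow_succ (σ) (k + 1)]
      rfl
    rw [h1]
    exact lt_trans (decomp_val_lt A (σ ^ (k + 1)) (Subgroup.pow_mem _ hσ _) h) ih

theorem decomp_pow_val_gt (A : ValuationSubring L) (σ : L ≃ₐ[K] L)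
    (hσ : σ ∈ A.decompositionSubgroup K) {a : L}
    (h : A.valuation a < A.valuation (σ a)) (m : ℕ) :
    A.valuation a < A.valuation ((σ ^ (m + 1)) a) := by
  induction m with
  | zero => simpa using h
  | succ k ih =>
    have h1 : (σ ^ (k + 1 + 1)) a = (σ ^ (k + 1)) (σ a) := by
      rw [pow_succ (σ) (k + 1)]
      rfl
    rw [h1]
    exact lt_trans ih (decomp_val_lt A (σ ^ (k + 1)) (Subgroup.pow_mem _ hσ _) h)

/-- Every element of an algebraic extension is fixed by a positive power of a given
automorphism. -/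
theorem exists_pow_apply_eq_self [Algebra.IsAlgebraic K L] (σ : L ≃ₐ[K] L) (a : L) :
    ∃ m : ℕ, (σ ^ (m + 1)) a = a := by
  have hint : IsIntegral K a := (Algebra.IsAlgebraic.isAlgebraic a).isIntegral
  have hfin : ((minpoly K a).rootSet L).Finite := Polynomial.rootSet_finite _ _
  have hmem : ∀ i : ℕ, (σ ^ i) a ∈ (minpoly K a).rootSet L := by
    intro i
    rw [Polynomial.mem_rootSet]
    refine ⟨minpoly.ne_zero hint, ?_⟩
    have := Polynomial.aeval_algHom_apply ((σ ^ i : L ≃ₐ[K] L) : L →ₐ[K] L) a (minpoly K a)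
    rw [minpoly.aeval, map_zero] at this
    exact this
  obtain ⟨i, j, hij, heq⟩ := Set.Finite.exists_lt_map_eq_of_forall_mem hmem hfin
  obtain ⟨k, rfl⟩ : ∃ k, j = i + (k + 1) := ⟨j - i - 1, by omega⟩
  refine ⟨k, ?_⟩
  have h1 : (σ ^ (i + (k + 1))) a = (σ ^ i) ((σ ^ (k + 1)) a) := by
    rw [pow_add]
    rfl
  rw [h1] at heq
  exact ((σ ^ i).injective heq).symm

/-- An element of the decomposition group preserves the valuation. -/
theorem decomp_val_eq [Algebra.IsAlgebraic K L] (A : ValuationSubring L) (σ : L ≃ₐ[K] L)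
    (hσ : σ ∈ A.decompositionSubgroup K) (a : L) :
    A.valuation (σ a) = A.valuation a := by
  obtain ⟨m, hm⟩ := exists_pow_apply_eq_self σ a
  rcases lt_trichotomy (A.valuation (σ a)) (A.valuation a) with h | h | h
  · have := decomp_pow_val_lt A σ hσ h m
    rw [hm] at this
    exact absurd this (lt_irrefl _)
  · exact h
  · have := decomp_pow_val_gt A σ hσ h m
    rw [hm] at this
    exact absurd this (lt_irrefl _)

end Fermat.Agent.S13Two
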