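/-
S13, piece (L_p), sub-lemmas for the exclusion of the case `E[p] ⊆ G₁` (helper64).

* `coeff_le_of_root_factor`, `budget` : if a polynomial `G` with `v`-integral coefficients is
  divisible by `∏ (X - x)` over a multiset of elements with `1 < v x`, then
  `v (leadingCoeff G) * ∏ v x ≤ 1`.
-/
import Mathlib
import Fermat.Agent.S05.H5.IntVal

set_option autoImplicit false

namespace Fermat.Agent.S13Budget

open Polynomial

variable {K : Type*} [Field K] {Γ₀ : Type*} [LinearOrderedCommGroupWithZero Γ₀]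

/-- One root: if `G = (X - x) * H`, `G` has integral coefficients and `1 < v x`, then `x • H` has
integral coefficients. -/
theorem coeff_le_of_root_factor (v : Valuation K Γ₀) {G H : K[X]} {x : K} (hx : 1 < v x)
    (hG : ∀ n, v (G.coeff n) ≤ 1) (hGH : G = (X - C x) * H) :
    ∀ n, v (x * H.coeff n) ≤ 1 := by
  have hx0 : x ≠ 0 := by
    rintro rfl
    simp at hx
  have hvx0 : v x ≠ 0 := (v.ne_zero_iff).mpr hx0
  intro n
  induction n with
  | zero =>
    have h0 : G.coeff 0 = - (x * H.coeff 0) := by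
      rw [hGH, sub_mul, coeff_sub, coeff_X_mul_zero, coeff_C_mul]
      ring
    have := hG 0
    rw [h0, Valuation.map_neg] at this
    exact this
  | succ n ih =>
    have h1 : G.coeff (n + 1) = H.coeff n - x * H.coeff (n + 1) := by
      rw [hGH, sub_mul, coeff_sub, coeff_X_mul, coeff_C_mul]
    have h2 : x * H.coeff (n + 1) = H.coeff n - G.coeff (n + 1) := by
      rw [h1]; ring
    rw [h2]
    have h3 : v (H.coeff n) ≤ 1 := by
      have h4 : v x * v (H.coeff n) ≤ 1 := by rwa [← map_mul]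
      by_contra hlt
      rw [not_le] at hlt
      have : 1 * 1 < v x * v (H.coeff n) := by
        exact mul_lt_mul'' hx hlt (by simp) (by simp)
      rw [one_mul] at this
      exact absurd h4 (not_le.mpr this)
    exact (Valuation.map_sub v _ _).trans (max_le h3 (hG (n + 1)))

/-- Several roots: if `G = ∏_{x ∈ s} (X - x) * H`, `G` has integral coefficients and `1 < v x` for
all `x ∈ s`, then `(∏ s) • H` has integral coefficients. -/
theorem coeff_le_of_roots_factor (v : Valuation K Γ₀) (s : Multiset K) :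
    ∀ {G H : K[X]}, (∀ x ∈ s, 1 < v x) → (∀ n, v (G.coeff n) ≤ 1) →
      G = (s.map (fun x => X - C x)).prod * H → ∀ n, v (s.prod * H.coeff n) ≤ 1 := by
  induction s using Multiset.induction_on with
  | empty =>
    intro G H _ hG hGH n
    simp only [Multiset.map_zero, Multiset.prod_zero, one_mul] at hGH ⊢
    rw [← hGH]
    exact hG n
  | cons x t ih =>
    intro G H hs hG hGH n
    have hx : 1 < v x := hs x (Multiset.mem_cons_self x t)
    have ht : ∀ y ∈ t, 1 < v y := fun y hy => hs y (Multiset.mem_cons_of_mem hy)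
    rw [Multiset.map_cons, Multiset.prod_cons, mul_assoc] at hGH
    have h1 := coeff_le_of_root_factor v hx hG hGH
    -- apply the induction hypothesis to `C x * (∏ t * H) = ∏ t * (C x * H)`
    have h2 : ∀ n, v ((C x * ((t.map (fun x => X - C x)).prod * H)).coeff n) ≤ 1 := by
      intro n
      rw [coeff_C_mul]
      exact h1 n
    have h3 : C x * ((t.map (fun x => X - C x)).prod * H)
        = (t.map (fun x => X - C x)).prod * (C x * H) := by ring
    have h4 := ih ht h2 h3 n
    rw [coeff_C_mul] at h4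
    rw [Multiset.prod_cons]
    have : x * t.prod * H.coeff n = t.prod * (x * H.coeff n) := by ring
    rw [this]
    exact h4

/-- **Budget lemma.** If a nonzero polynomial `G` with `v`-integral coefficients is divisible by
`∏_{x ∈ s} (X - x)` where `1 < v x` for all `x ∈ s`, then
`v (leadingCoeff G) * ∏_{x ∈ s} v x ≤ 1`. -/
theorem budget (v : Valuation K Γ₀) (G : K[X]) (hG : ∀ n, v (G.coeff n) ≤ 1) (s : Multiset K)
    (hs : ∀ x ∈ s, 1 < v x) (hdvd : (s.map (fun x => X - C x)).prod ∣ G) :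
    v G.leadingCoeff * (s.map v).prod ≤ 1 := by
  obtain ⟨H, hGH⟩ := hdvd
  have hmonic : ((s.map (fun x => X - C x)).prod).Monic :=
    monic_multiset_prod_of_monic _ _ (fun x _ => monic_X_sub_C x)
  have hlc : G.leadingCoeff = H.leadingCoeff := by
    rw [hGH, leadingCoeff_mul, hmonic.leadingCoeff, one_mul]
  have h := coeff_le_of_roots_factor v s hs hG hGH H.natDegree
  have hprod : v s.prod = (s.map v).prod := (map_multiset_prod v s)
  rw [map_mul, hprod] at h
  rw [hlc, mul_comm]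
  exact h

/-! ### (B2) rationality of products over Galois-stable finite sets -/

/-- The product over a finite Galois-stable subset of a Galois extension lies in the base field. -/
theorem prod_mem_range_of_stable {k L : Type*} [Field k] [Field L] [Algebra k L] [IsGalois k L]
    (T : Finset L) (hT : ∀ σ : L ≃ₐ[k] L, ∀ x ∈ T, σ x ∈ T) :
    ∃ r : k, algebraMap k L r = ∏ x ∈ T, x := by
  classical
  have hfix : ∀ σ : L ≃ₐ[k] L, σ (∏ x ∈ T, x) = ∏ x ∈ T, x := by
    intro σ
    rw [map_prod]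
    have himg : T.image σ = T := by
      apply Finset.eq_of_subset_of_card_le
      · intro y hy
        obtain ⟨x, hx, rfl⟩ := Finset.mem_image.mp hy
        exact hT σ x hx
      · rw [Finset.card_image_of_injective _ σ.injective]
    calc ∏ x ∈ T, σ x = ∏ y ∈ T.image σ, y := by
          rw [Finset.prod_image (fun x _ y _ h => σ.injective h)]
      _ = ∏ x ∈ T, x := by rw [himg]
  exact (InfiniteGalois.mem_range_algebraMap_iff_fixed (k := k) (K := L) _).mpr hfix

/-! ### (B3) the valuation of a nonzero rational is an integral power of `v p` -/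

theorem v_natCast_eq_pow (v : Valuation K Γ₀) {p : ℕ} (hp : p.Prime) (hvp : v (p : K) < 1)
    {n : ℕ} (hn : n ≠ 0) : ∃ e : ℕ, v (n : K) = v (p : K) ^ e := by
  obtain ⟨e, m, hm, rfl⟩ := Nat.exists_eq_pow_mul_and_not_dvd hn p hp.ne_one
  refine ⟨e, ?_⟩
  have hm1 : v (m : K) = 1 := S05H5.v_natCast_eq_one v hp hvp hm
  push_cast
  rw [map_mul, map_pow, hm1, mul_one]

theorem v_intCast_eq_pow (v : Valuation K Γ₀) {p : ℕ} (hp : p.Prime) (hvp : v (p : K) < 1)
    {n : ℤ} (hn : n ≠ 0) : ∃ e : ℕ, v (n : K) = v (p : K) ^ e := by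
  obtain ⟨e, he⟩ := v_natCast_eq_pow v hp hvp (Int.natAbs_ne_zero.mpr hn)
  refine ⟨e, ?_⟩
  rw [← he]
  rcases Int.natAbs_eq n with h | h
  · conv_lhs => rw [h]
    simp
  · conv_lhs => rw [h]
    simp

/-- **(B3)** The valuation of a nonzero rational number is an integral power of `v p`. -/
theorem v_ratCast_eq_zpow [CharZero K] (v : Valuation K Γ₀) {p : ℕ} (hp : p.Prime)
    (hvp : v (p : K) < 1) {r : ℚ} (hr : r ≠ 0) : ∃ k : ℤ, v (r : K) = v (p : K) ^ k := by
  obtain ⟨e, he⟩ := v_intCast_eq_pow v hp hvp (Rat.num_ne_zero.mpr hr)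
  obtain ⟨f, hf⟩ := v_natCast_eq_pow v hp hvp r.den_ne_zero
  refine ⟨(e : ℤ) - f, ?_⟩
  have hp0 : v (p : K) ≠ 0 := by
    rw [Valuation.ne_zero_iff]
    exact_mod_cast hp.ne_zero
  have hcast : (r : K) = (r.num : K) / (r.den : K) := by
    conv_lhs => rw [← Rat.num_div_den r]
    push_cast
    rfl
  rw [hcast, map_div₀, he, hf, zpow_sub₀ hp0, zpow_natCast, zpow_natCast]

/-! ### (B4) the abstract contradiction -/

theorem one_le_prod_v (v : Valuation K Γ₀) (S : Finset K) (h : ∀ x ∈ S, 1 < v x) :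
    1 ≤ ∏ x ∈ S, v x := by
  classical
  induction S using Finset.induction_on with
  | empty => simp
  | insert a S ha ih =>
    rw [Finset.prod_insert ha]
    have h1 : 1 < v a := h a (Finset.mem_insert_self a S)
    have h2 : 1 ≤ ∏ x ∈ S, v x := ih (fun x hx => h x (Finset.mem_insert_of_mem hx))
    calc (1 : Γ₀) = 1 * 1 := (one_mul 1).symm
      _ ≤ v a * ∏ x ∈ S, v x := mul_le_mul' h1.le h2

theorem one_lt_prod_v (v : Valuation K Γ₀) (S : Finset K) (hne : S.Nonempty)
    (h : ∀ x ∈ S, 1 < v x) : 1 < ∏ x ∈ S, v x := by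
  classical
  obtain ⟨a, ha⟩ := hne
  rw [← Finset.mul_prod_erase S _ ha]
  have h1 : 1 < v a := h a ha
  have h2 : 1 ≤ ∏ x ∈ S.erase a, v x :=
    one_le_prod_v v _ (fun x hx => h x (Finset.mem_of_mem_erase hx))
  calc (1 : Γ₀) < v a := h1
    _ = v a * 1 := (mul_one _).symm
    _ ≤ v a * ∏ x ∈ S.erase a, v x := mul_le_mul' le_rfl h2

/-- **(B4)** Abstract form of the exclusion of `E[p] ⊆ G₁`: `T` is the set of `x`-coordinates of
`E[p] ∖ 0`, `TN` those of a Galois-stable line; `G` is the (non-reduced) ladder polynomial. -/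
theorem budget_contra [CharZero K] (v : Valuation K Γ₀) {p : ℕ} (hp : p.Prime)
    (hvp : v (p : K) < 1) (G : K[X]) (hG : ∀ n, v (G.coeff n) ≤ 1)
    (hlc : v G.leadingCoeff = v (p : K) ^ 2)
    (T TN : Finset K) (hsub : TN ⊆ T) (hne : TN.Nonempty) (hprop : ∃ x ∈ T, x ∉ TN)
    (hT : ∀ x ∈ T, 1 < v x)
    (hdvd : (∏ x ∈ T, (X - C x) ^ 2) ∣ G)
    (hrat : ∃ r : ℚ, (r : K) = ∏ x ∈ TN, x) : False := by
  classical
  have hp0 : v (p : K) ≠ 0 := by
    rw [Valuation.ne_zero_iff]
    exact_mod_cast hp.ne_zero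
  -- Step 1: the budget inequality
  have hb : v G.leadingCoeff * ((T.val + T.val).map v).prod ≤ 1 := by
    apply budget v G hG (T.val + T.val)
    · intro x hx
      rcases Multiset.mem_add.mp hx with h | h <;> exact hT x h
    · rw [Multiset.map_add, Multiset.prod_add]
      have : (T.val.map (fun x => X - C x)).prod = ∏ x ∈ T, (X - C x) := rfl
      rw [this, ← sq, ← Finset.prod_pow]
      exact hdvd
  have hTprod : (T.val.map v).prod = ∏ x ∈ T, v x := rfl
  rw [Multiset.map_add, Multiset.prod_add, hTprod, hlc, ← sq, ← mul_pow] at hb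
  -- Step 2: `v p * ∏_T v x ≤ 1`
  have h2 : v (p : K) * ∏ x ∈ T, v x ≤ 1 := by
    by_contra hlt
    rw [not_le] at hlt
    have : (1 : Γ₀) < (v (p : K) * ∏ x ∈ T, v x) ^ 2 := by
      rw [sq]
      calc (1 : Γ₀) < v (p : K) * ∏ x ∈ T, v x := hlt
        _ = (v (p : K) * ∏ x ∈ T, v x) * 1 := (mul_one _).symm
        _ ≤ (v (p : K) * ∏ x ∈ T, v x) * (v (p : K) * ∏ x ∈ T, v x) :=
            mul_le_mul' le_rfl hlt.le
    exact absurd hb (not_le.mpr this)
  -- Step 3: the product over `TN` has valuation an integral power of `v p`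
  obtain ⟨r, hr⟩ := hrat
  have hTN : ∀ x ∈ TN, 1 < v x := fun x hx => hT x (hsub hx)
  have hvprod : v (∏ x ∈ TN, x) = ∏ x ∈ TN, v x := map_prod v _ _
  have h1N : 1 < ∏ x ∈ TN, v x := one_lt_prod_v v TN hne hTN
  have hr0 : r ≠ 0 := by
    rintro rfl
    rw [Rat.cast_zero] at hr
    rw [← hr, map_zero] at hvprod
    rw [← hvprod] at h1N
    exact absurd h1N (by simp)
  obtain ⟨k, hk⟩ := v_ratCast_eq_zpow v hp hvp hr0
  rw [hr, hvprod] at hk
  -- Step 4: `k < 0`, hence `1 ≤ v p * ∏_{TN} v x`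
  have hk0 : k < 0 := by
    by_contra hk0
    rw [not_lt] at hk0
    obtain ⟨n, rfl⟩ := Int.eq_ofNat_of_zero_le hk0
    rw [zpow_natCast] at hk
    have : v (p : K) ^ n ≤ 1 := pow_le_one' hvp.le n
    rw [← hk] at this
    exact absurd this (not_le.mpr h1N)
  have h4 : 1 ≤ v (p : K) * ∏ x ∈ TN, v x := by
    rw [hk]
    obtain ⟨n, hn⟩ : ∃ n : ℕ, k = -((n : ℤ) + 1) := by
      refine ⟨(-k - 1).toNat, ?_⟩
      rw [Int.toNat_of_nonneg (by omega)]
      ring
    rw [hn, zpow_neg]
    have e : v (p : K) * (v (p : K) ^ ((n : ℤ) + 1))⁻¹ = (v (p : K) ^ n)⁻¹ := by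
      rw [zpow_add_one₀ hp0, zpow_natCast, mul_inv, mul_comm (v (p : K) ^ n)⁻¹, ← mul_assoc,
        mul_inv_cancel₀ hp0, one_mul]
    rw [e]
    have hpos : 0 < v (p : K) ^ n := pow_pos (zero_lt_iff.mpr hp0) n
    exact (one_le_inv₀ hpos).mpr (pow_le_one' hvp.le n)
  -- Step 5: split the product
  have hsplit : ∏ x ∈ T, v x = (∏ x ∈ TN, v x) * ∏ x ∈ T \ TN, v x := by
    rw [mul_comm]
    exact (Finset.prod_sdiff hsub).symm
  have hne' : (T \ TN).Nonempty := by
    obtain ⟨x, hx, hxN⟩ := hprop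
    exact ⟨x, Finset.mem_sdiff.mpr ⟨hx, hxN⟩⟩
  have h5 : 1 < ∏ x ∈ T \ TN, v x :=
    one_lt_prod_v v _ hne' (fun x hx => hT x (Finset.mem_sdiff.mp hx).1)
  rw [hsplit, ← mul_assoc] at h2
  have : (1 : Γ₀) < v (p : K) * (∏ x ∈ TN, v x) * ∏ x ∈ T \ TN, v x := by
    calc (1 : Γ₀) < ∏ x ∈ T \ TN, v x := h5
      _ = 1 * ∏ x ∈ T \ TN, v x := (one_mul _).symm
      _ ≤ v (p : K) * (∏ x ∈ TN, v x) * ∏ x ∈ T \ TN, v x := mul_le_mul' h4 le_rfl
  exact absurd h2 (not_le.mpr this)

end Fermat.Agent.S13Budget
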