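/-
S13 piece (Np)/(L_p), abstract core (helper15): linear algebra of the local dichotomy at `p`.

`V` a two-dimensional `𝔽_p`-vector space (given through `Nat.card V = p ^ 2`), `N` a line,
`L` a proper subspace, `I` a set of operators with `(σ - 1) V ⊆ L` stabilising `N`:
then `(σ - 1) V ⊆ N` for all `σ ∈ I`, or every `σ ∈ I` fixes `N` pointwise.
-/
import Mathlib

set_option autoImplicit false

namespace Fermat.Agent.S13AtP

section LinAlg

variable {p : ℕ} [Fact p.Prime] {V : Type*} [AddCommGroup V] [Module (ZMod p) V]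

theorem finrank_eq_two_of_card (hcard : Nat.card V = p ^ 2) :
    Module.finrank (ZMod p) V = 2 := by
  have hp : p.Prime := Fact.out
  have : Finite V := Nat.finite_of_card_ne_zero (by rw [hcard]; exact pow_ne_zero _ hp.ne_zero)
  have h := Module.natCard_eq_pow_finrank (K := ZMod p) (V := V)
  rw [Nat.card_zmod, hcard] at h
  exact (Nat.pow_right_injective hp.two_le h).symm

theorem eq_or_inf_eq_bot (hcard : Nat.card V = p ^ 2) (N L : Submodule (ZMod p) V)
    (hbot : N ≠ ⊥) (htop : N ≠ ⊤) (hL : L ≠ ⊤) : N = L ∨ N ⊓ L = ⊥ := by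
  have hp : p.Prime := Fact.out
  have : Finite V := Nat.finite_of_card_ne_zero (by rw [hcard]; exact pow_ne_zero _ hp.ne_zero)
  have : FiniteDimensional (ZMod p) V := Module.Finite.of_finite
  have h2 := finrank_eq_two_of_card hcard
  have hN1 : Module.finrank (ZMod p) N < 2 := h2 ▸ Submodule.finrank_lt htop
  have hL1 : Module.finrank (ZMod p) L < 2 := h2 ▸ Submodule.finrank_lt hL
  have hN0 : 0 < Module.finrank (ZMod p) N := by
    rw [Module.finrank_pos_iff_exists_ne_zero]
    obtain ⟨x, hx, hx0⟩ := (Submodule.ne_bot_iff N).mp hbot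
    exact ⟨⟨x, hx⟩, fun h => hx0 (congrArg Subtype.val h)⟩
  by_cases hle : N ≤ L
  · left
    exact Submodule.eq_of_le_of_finrank_le hle (by omega)
  · right
    have hlt : N ⊓ L < N := lt_of_le_of_ne inf_le_left (fun h => hle (h ▸ inf_le_right))
    have h3 := Submodule.finrank_lt_finrank_of_lt hlt
    have h4 : Module.finrank (ZMod p) ↥(N ⊓ L) = 0 := by omega
    exact Submodule.finrank_eq_zero.mp h4


/-- A finite `𝔽_p`-vector space of cardinality at most `p ^ 2` with a proper nonzero subspace has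
cardinality exactly `p ^ 2`. -/
theorem card_eq_sq_of_line [Finite V] (hle : Nat.card V ≤ p ^ 2) (N : Submodule (ZMod p) V)
    (hbot : N ≠ ⊥) (htop : N ≠ ⊤) : Nat.card V = p ^ 2 := by
  have hp : p.Prime := Fact.out
  have : FiniteDimensional (ZMod p) V := Module.Finite.of_finite
  have h := Module.natCard_eq_pow_finrank (K := ZMod p) (V := V)
  rw [Nat.card_zmod] at h
  have hN1 : Module.finrank (ZMod p) N < Module.finrank (ZMod p) V := Submodule.finrank_lt htop
  have hN0 : 0 < Module.finrank (ZMod p) N := by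
    rw [Module.finrank_pos_iff_exists_ne_zero]
    obtain ⟨x, hx, hx0⟩ := (Submodule.ne_bot_iff N).mp hbot
    exact ⟨⟨x, hx⟩, fun h => hx0 (congrArg Subtype.val h)⟩
  have h2 : 2 ≤ Module.finrank (ZMod p) V := by omega
  apply le_antisymm hle
  rw [h]
  exact Nat.pow_le_pow_right hp.pos h2

/-- The abstract dichotomy. -/
theorem dichotomy {G : Type*} [SMul G V] (I : Set G) (hcard : Nat.card V = p ^ 2)
    (N L : Submodule (ZMod p) V) (hbot : N ≠ ⊥) (htop : N ≠ ⊤) (hL : L ≠ ⊤)
    (hstab : ∀ σ ∈ I, ∀ x ∈ N, σ • x ∈ N) (hc : ∀ σ ∈ I, ∀ x : V, σ • x - x ∈ L) :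
    (∀ σ ∈ I, ∀ x : V, σ • x - x ∈ N) ∨ (∀ σ ∈ I, ∀ x ∈ N, σ • x = x) := by
  rcases eq_or_inf_eq_bot hcard N L hbot htop hL with h | h
  · left
    intro σ hσ x
    rw [h]
    exact hc σ hσ x
  · right
    intro σ hσ x hx
    have h1 : σ • x - x ∈ N ⊓ L := ⟨N.sub_mem (hstab σ hσ x hx) hx, hc σ hσ x⟩
    rw [h, Submodule.mem_bot] at h1
    exact sub_eq_zero.mp h1

end LinAlg

end Fermat.Agent.S13AtP
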