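/-
S13, piece (L_p): concrete glue (helper64).  For the Frey curve and a valuation subring `A` of
`Qbar` over `p = P.p`: in the presence of a Galois-stable line `N`, NOT all `p`-torsion points lie
in the kernel of reduction `G₁(A)`.

Proof: valuation budget (`Fermat.Agent.S13Budget.budget_contra`) applied to helper25's ladder
polynomial `ladG` of the integral Frey model.
-/
import Mathlib
import Fermat.Agent.S13.LpBudget
import Fermat.Agent.Lib.Torsion.LadderDegree
import Fermat.Agent.S05.H75.KerRed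
import Fermat.Agent.S05.H75.FreyData
import Fermat.Prelude.Def_FLTPrelim_Ramification

set_option autoImplicit false

namespace Fermat.Agent.S13Budget

open Polynomial WeierstrassCurve WeierstrassCurve.Affine S05H65 S05H75 Fermat.Agent.Torsion

local notation "Qb" => AlgebraicClosure ℚ

variable (P : FreyPackage)

/-- The ladder polynomial `G_p` of the integral Frey model, over `Qb`. -/
noncomputable def freyLadG : Polynomial Qb :=
  (ladG P.freyCurveInt P.p).map (Int.castRingHom Qb)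

lemma freyLadG_eq : freyLadG P = ladG (P.freyCurve⁄Qb) P.p := by
  have hp1 : 1 ≤ P.p := by have := P.hp5; omega
  rw [freyLadG, (map_lad P.freyCurveInt (Int.castRingHom Qb) P.p hp1).2]
  congr 1
  exact (frey_baseChange_eq (K := Qb) P).symm

lemma freyLadG_coeff_le {Γ₀ : Type*} [LinearOrderedCommGroupWithZero Γ₀] (v : Valuation Qb Γ₀)
    (n : ℕ) : v ((freyLadG P).coeff n) ≤ 1 := by
  rw [freyLadG, coeff_map, eq_intCast]
  exact S05H5.vle_intCast v _

lemma freyLadG_leadingCoeff :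
    (freyLadG P).leadingCoeff = ((P.p ^ 2 * ladLead P.p : ℕ) : Qb) := by
  have hp1 : 1 ≤ P.p := by have := P.hp5; omega
  rw [freyLadG_eq]
  exact (natDegree_ladG (P.freyCurve⁄Qb) P.p hp1).2

lemma freyLadG_ne_zero : freyLadG P ≠ 0 := by
  have hp1 : 1 ≤ P.p := by have := P.hp5; omega
  rw [freyLadG_eq]
  exact ladG_ne_zero (P.freyCurve⁄Qb) P.p hp1

lemma v_freyLadG_leadingCoeff {Γ₀ : Type*} [LinearOrderedCommGroupWithZero Γ₀]
    (v : Valuation Qb Γ₀) (hvp : v (P.p : Qb) < 1) :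
    v (freyLadG P).leadingCoeff = v (P.p : Qb) ^ 2 := by
  rw [freyLadG_leadingCoeff]
  push_cast
  rw [map_mul, map_pow, S05H5.v_natCast_eq_one v P.pp hvp (not_dvd_ladLead_self P.pp), mul_one]

/-- `x`-coordinates of nonzero `p`-torsion points are double roots of `freyLadG`. -/
lemma sq_dvd_freyLadG {X : (P.freyCurve⁄Qb).Point} (hX0 : X ≠ 0) (hX : P.p • X = 0) :
    (Polynomial.X - C (px X)) ^ 2 ∣ freyLadG P := by
  rw [freyLadG_eq]
  obtain ⟨k, hk⟩ : ∃ k, P.p = k + 3 := ⟨P.p - 3, by have := P.hp5; omega⟩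
  rw [hk] at hX ⊢
  exact sq_dvd_ladG_of_smul_eq_zero hX0 k hX

/-- The `x`-coordinate is Galois-equivariant. -/
lemma px_algEquiv_smul (σ : Qb ≃ₐ[ℚ] Qb) (X : (P.freyCurve⁄Qb).Point) :
    px (σ • X) = σ (px X) := by
  rcases X with _ | ⟨x, y, h⟩
  · show (0 : Qb) = σ 0
    rw [map_zero]
  · rfl

lemma algEquiv_smul_ne_zero (σ : Qb ≃ₐ[ℚ] Qb) {X : (P.freyCurve⁄Qb).Point} (hX : X ≠ 0) :
    σ • X ≠ 0 := by
  intro h
  apply hX
  have := congrArg (fun Y => σ⁻¹ • Y) h
  simp only [inv_smul_smul] at this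
  exact this

theorem isGalois_Qb_rat : IsGalois ℚ Qb := by
  have : Algebra.IsAlgebraic ℚ Qb := AlgebraicClosure.isAlgebraic ℚ
  have : IsAlgClosure ℚ Qb := ⟨inferInstance, inferInstance⟩
  infer_instance

/-- **(L_p), supersingular exclusion.** In the presence of a Galois-stable line, not all
`p`-torsion points of the Frey curve lie in the kernel of reduction at a place over `p`. -/
theorem frey_exists_not_inG1 (P : FreyPackage)
    (N : Submodule (ZMod P.p) (Submodule.torsionBy ℤ (P.freyCurve⁄Qb).Point P.p))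
    (hN : WeierstrassCurve.Affine.Point.IsGaloisStable ℚ N) (hbot : N ≠ ⊥) (htop : N ≠ ⊤)
    (A : ValuationSubring Qb) (hA : A.LiesOverPrime P.p) :
    ∃ x : Submodule.torsionBy ℤ (P.freyCurve⁄Qb).Point P.p,
      ¬ S05H75.InG1 A.valuation (x : (P.freyCurve⁄Qb).Point) := by
  classical
  by_contra hall
  push Not at hall
  have hvp : A.valuation (P.p : Qb) < 1 := hA
  -- torsion in ℕ-form
  have htors : ∀ X : Submodule.torsionBy ℤ (P.freyCurve⁄Qb).Point P.p,
      P.p • (X : (P.freyCurve⁄Qb).Point) = 0 := by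
    intro X
    have := (Submodule.mem_torsionBy_iff _ _).mp X.2
    rwa [natCast_zsmul] at this
  have hcoe_ne : ∀ X : Submodule.torsionBy ℤ (P.freyCurve⁄Qb).Point P.p, X ≠ 0 →
      (X : (P.freyCurve⁄Qb).Point) ≠ 0 := by
    intro X hX h
    exact hX (Subtype.ext h)
  have hroot : ∀ X : Submodule.torsionBy ℤ (P.freyCurve⁄Qb).Point P.p, X ≠ 0 →
      px (X : (P.freyCurve⁄Qb).Point) ∈ (freyLadG P).roots.toFinset := by
    intro X hX
    rw [Multiset.mem_toFinset, mem_roots (freyLadG_ne_zero P)]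
    have h1 := sq_dvd_freyLadG P (hcoe_ne X hX) (htors X)
    exact dvd_iff_isRoot.mp ((dvd_pow_self _ two_ne_zero).trans h1)
  set T : Finset Qb := (freyLadG P).roots.toFinset.filter
    (fun x => ∃ X : Submodule.torsionBy ℤ (P.freyCurve⁄Qb).Point P.p,
      X ≠ 0 ∧ px (X : (P.freyCurve⁄Qb).Point) = x) with hTdef
  set TN : Finset Qb := (freyLadG P).roots.toFinset.filter
    (fun x => ∃ X : Submodule.torsionBy ℤ (P.freyCurve⁄Qb).Point P.p,
      X ∈ N ∧ X ≠ 0 ∧ px (X : (P.freyCurve⁄Qb).Point) = x) with hTNdef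
  have hmemT : ∀ x, x ∈ T ↔ ∃ X : Submodule.torsionBy ℤ (P.freyCurve⁄Qb).Point P.p,
      X ≠ 0 ∧ px (X : (P.freyCurve⁄Qb).Point) = x := by
    intro x
    rw [hTdef, Finset.mem_filter]
    constructor
    · exact fun h => h.2
    · rintro ⟨X, hX, rfl⟩
      exact ⟨hroot X hX, X, hX, rfl⟩
  have hmemTN : ∀ x, x ∈ TN ↔ ∃ X : Submodule.torsionBy ℤ (P.freyCurve⁄Qb).Point P.p,
      X ∈ N ∧ X ≠ 0 ∧ px (X : (P.freyCurve⁄Qb).Point) = x := by
    intro x
    rw [hTNdef, Finset.mem_filter]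
    constructor
    · exact fun h => h.2
    · rintro ⟨X, hXN, hX, rfl⟩
      exact ⟨hroot X hX, X, hXN, hX, rfl⟩
  -- the hypotheses of `budget_contra`
  have hsub : TN ⊆ T := by
    intro x hx
    obtain ⟨X, -, hX, rfl⟩ := (hmemTN x).mp hx
    exact (hmemT _).mpr ⟨X, hX, rfl⟩
  have hne : TN.Nonempty := by
    obtain ⟨X, hXN, hX⟩ := Submodule.exists_mem_ne_zero_of_ne_bot hbot
    exact ⟨_, (hmemTN _).mpr ⟨X, hXN, hX, rfl⟩⟩
  have hprop : ∃ x ∈ T, x ∉ TN := by
    obtain ⟨X₀, hX₀⟩ : ∃ X₀ : Submodule.torsionBy ℤ (P.freyCurve⁄Qb).Point P.p, X₀ ∉ N := by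
      by_contra h
      push Not at h
      exact htop ((Submodule.eq_top_iff').mpr h)
    have hX₀0 : X₀ ≠ 0 := by
      rintro rfl
      exact hX₀ N.zero_mem
    refine ⟨px (X₀ : (P.freyCurve⁄Qb).Point), (hmemT _).mpr ⟨X₀, hX₀0, rfl⟩, ?_⟩
    intro hmem
    obtain ⟨Y, hYN, hY0, hYX⟩ := (hmemTN _).mp hmem
    rcases eq_or_eq_neg_of_px_eq (hcoe_ne Y hY0) (hcoe_ne X₀ hX₀0) hYX with h | h
    · have : Y = X₀ := Subtype.ext h
      exact hX₀ (this ▸ hYN)
    · have : X₀ = -Y := by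
        apply Subtype.ext
        show (X₀ : (P.freyCurve⁄Qb).Point) = -(Y : (P.freyCurve⁄Qb).Point)
        rw [h, neg_neg]
      exact hX₀ (this ▸ N.neg_mem hYN)
  have hT : ∀ x ∈ T, 1 < A.valuation x := by
    intro x hx
    obtain ⟨X, hX, rfl⟩ := (hmemT x).mp hx
    rcases hall X with h | h
    · exact absurd h (hcoe_ne X hX)
    · exact h
  have hdvd : (∏ x ∈ T, (Polynomial.X - C x) ^ 2) ∣ freyLadG P := by
    apply Finset.prod_dvd_of_coprime
    · intro x _ y _ hxy
      exact (isCoprime_X_sub_C_of_isUnit_sub (sub_ne_zero_of_ne hxy).isUnit).pow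
    · intro x hx
      obtain ⟨X, hX, rfl⟩ := (hmemT x).mp hx
      exact sq_dvd_freyLadG P (hcoe_ne X hX) (htors X)
  have hrat : ∃ r : ℚ, (r : Qb) = ∏ x ∈ TN, x := by
    have : IsGalois ℚ Qb := isGalois_Qb_rat
    obtain ⟨r, hr⟩ := prod_mem_range_of_stable (k := ℚ) (L := Qb) TN (by
      intro σ x hx
      obtain ⟨X, hXN, hX, rfl⟩ := (hmemTN x).mp hx
      refine (hmemTN _).mpr ⟨σ • X, hN σ X hXN, ?_, ?_⟩
      · intro h
        have h' : σ • (X : (P.freyCurve⁄Qb).Point) = 0 := congrArg Subtype.val h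
        exact algEquiv_smul_ne_zero P σ (hcoe_ne X hX) h'
      · exact px_algEquiv_smul P σ _)
    exact ⟨r, by rw [← hr, eq_ratCast]⟩
  exact budget_contra A.valuation P.pp hvp (freyLadG P) (freyLadG_coeff_le P A.valuation)
    (v_freyLadG_leadingCoeff P A.valuation hvp) T TN hsub hne hprop hT hdvd hrat

end Fermat.Agent.S13Budget
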