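/-
S13 piece (Np)/(L_p) (helper15): the local dichotomy at `p` for the Frey curve.

For a valuation subring `A` of `ℚ̄` over `p` and a Galois-stable line `N ⊂ E[p]`, the inertia
group of `A` acts trivially on `E[p] / N` or on `N`.

Inputs: (c) `Fermat.Agent.S13NpC.frey_map_sub_inG1` (helper2), (b) the supersingular exclusion
`Fermat.Agent.S13Budget.frey_exists_not_inG1` (helper64, on helper25's ladder polynomials), and
the linear algebra of `AtPCore.lean` / `AtPSub.lean`.
-/
import Mathlib
import Fermat.Agent.S13.AtPSub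
import Fermat.Agent.S13.LpGlue

set_option autoImplicit false

namespace Fermat.Agent.S13AtP

open WeierstrassCurve WeierstrassCurve.Affine WeierstrassCurve.Affine.Point

/-- **(Np)**: the local dichotomy at `p`. -/
theorem frey_inertia_p_dichotomy (P : FreyPackage)
    (hcard : Nat.card (Submodule.torsionBy ℤ (P.freyCurve⁄(AlgebraicClosure ℚ)).Point P.p)
      = P.p ^ 2)
    (N : Submodule (ZMod P.p) (Submodule.torsionBy ℤ (P.freyCurve⁄(AlgebraicClosure ℚ)).Point P.p))
    (hN : IsGaloisStable ℚ N) (hbot : N ≠ ⊥) (htop : N ≠ ⊤)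
    (A : ValuationSubring (AlgebraicClosure ℚ)) (hA : A.LiesOverPrime P.p) :
    (∀ σ ∈ A.inertiaSubgroupIn ℚ,
      ∀ x : Submodule.torsionBy ℤ (P.freyCurve⁄(AlgebraicClosure ℚ)).Point P.p, σ • x - x ∈ N) ∨
    (∀ σ ∈ A.inertiaSubgroupIn ℚ, ∀ x ∈ N, σ • x = x) :=
  frey_inertia_p_dichotomy_of P hcard N hN hbot htop A hA
    (Fermat.Agent.S13Budget.frey_exists_not_inG1 P N hN hbot htop A hA)

end Fermat.Agent.S13AtP
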