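/-
S13 final assembly, linear algebra (helper15): a unipotent operator on a plane stabilising a line
acts trivially on the line and on the quotient.
-/
import Mathlib
import Fermat.Agent.S13.AtPCore

set_option autoImplicit false

namespace Fermat.Agent.S13Final

open Fermat.Agent.S13AtP

section LinAlg

variable {p : ℕ} [Fact p.Prime] {V : Type*} [AddCommGroup V] [Module (ZMod p) V]

/-- `g ∘ g = 0`, `g N ⊆ N`, `N` a line in a plane: `g` kills `N` and maps into `N`. -/
theorem nilpotent_line (hcard : Nat.card V = p ^ 2) (N : Submodule (ZMod p) V)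
    (hbot : N ≠ ⊥) (htop : N ≠ ⊤) (g : V →ₗ[ZMod p] V) (hg : ∀ x, g (g x) = 0)
    (hN : ∀ x ∈ N, g x ∈ N) : (∀ x ∈ N, g x = 0) ∧ (∀ x, g x ∈ N) := by
  have hp : p.Prime := Fact.out
  have : Finite V := Nat.finite_of_card_ne_zero (by rw [hcard]; exact pow_ne_zero _ hp.ne_zero)
  have : FiniteDimensional (ZMod p) V := Module.Finite.of_finite
  have h1 : ∀ x ∈ N, g x = 0 := by
    intro x hx
    by_contra hgx
    have hK : N ⊓ LinearMap.ker g ≠ ⊤ := by
      intro h
      have : x ∈ N ⊓ LinearMap.ker g := h ▸ Submodule.mem_top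
      exact hgx (LinearMap.mem_ker.mp this.2)
    rcases eq_or_inf_eq_bot hcard N (N ⊓ LinearMap.ker g) hbot htop hK with h | h
    · have : x ∈ N ⊓ LinearMap.ker g := h ▸ hx
      exact hgx (LinearMap.mem_ker.mp this.2)
    · have h2 : g x ∈ N ⊓ (N ⊓ LinearMap.ker g) :=
        ⟨hN x hx, hN x hx, LinearMap.mem_ker.mpr (hg x)⟩
      rw [h, Submodule.mem_bot] at h2
      exact hgx h2
  refine ⟨h1, ?_⟩
  by_cases hker : LinearMap.ker g = ⊤
  · intro x
    have : x ∈ LinearMap.ker g := hker ▸ Submodule.mem_top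
    rw [LinearMap.mem_ker.mp this]
    exact N.zero_mem
  · rcases eq_or_inf_eq_bot hcard N (LinearMap.ker g) hbot htop hker with h | h
    · intro x
      rw [h]
      exact LinearMap.mem_ker.mpr (hg x)
    · exfalso
      apply hbot
      rw [eq_bot_iff]
      intro x hx
      rw [← h]
      exact ⟨hx, LinearMap.mem_ker.mpr (h1 x hx)⟩

/-- A unipotent additive operator on a plane stabilising a line acts trivially on the line
and on the quotient. -/
theorem unipotent_line (hcard : Nat.card V = p ^ 2) (N : Submodule (ZMod p) V)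
    (hbot : N ≠ ⊥) (htop : N ≠ ⊤) (f : V →+ V) (hf : ∀ x, f (f x - x) = f x - x)
    (hN : ∀ x ∈ N, f x ∈ N) : (∀ x ∈ N, f x = x) ∧ (∀ x, f x - x ∈ N) := by
  let g : V →ₗ[ZMod p] V := (f - AddMonoidHom.id V).toZModLinearMap p
  have hgx : ∀ x, g x = f x - x := fun x => rfl
  have hg : ∀ x, g (g x) = 0 := by
    intro x
    rw [hgx (g x), hgx x, hf x, sub_self]
  have hNg : ∀ x ∈ N, g x ∈ N := fun x hx => by
    rw [hgx]; exact N.sub_mem (hN x hx) hx
  obtain ⟨h1, h2⟩ := nilpotent_line hcard N hbot htop g hg hNg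
  exact ⟨fun x hx => sub_eq_zero.mp ((hgx x) ▸ h1 x hx), fun x => (hgx x) ▸ h2 x⟩

end LinAlg

end Fermat.Agent.S13Final
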