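/-
S13 final assembly (helper15).  From the pieces

* (T1) `#E[p] = p ^ 2`,
* S05: inertia at odd `q ≠ p` acts trivially on `E[p]`,
* (U2) inertia at `2` acts unipotently on `E[p]`,
* (R) no nonzero Galois-fixed point in `E[p]`,
* (Np) the local dichotomy at `p`,
* (M) the Minkowski bridge,

a reducible `E[p]` has a Galois-stable cofixed line.
-/
import Mathlib
import Fermat.Prelude.Def_FLTPrelim_FreyPackage
import Fermat.Prelude.Def_FLTPrelim_GaloisRep
import Fermat.Prelude.Def_FLTPrelim_Ramification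
import Fermat.Prelude.Def_FLTPrelim_CofixedLine
import Fermat.Agent.Lib.Minkowski.Final
import Fermat.Agent.Lib.Frobenius.Exists
import Fermat.Agent.S13.FinalLin

set_option autoImplicit false

namespace Fermat.Agent.S13Final

open WeierstrassCurve WeierstrassCurve.Affine WeierstrassCurve.Affine.Point

section Open

variable {E : WeierstrassCurve ℚ}

/-- The stabiliser of a point of `E(ℚ̄)` is open in the Krull topology. -/
theorem isOpen_setOf_smul_eq (X : (E⁄(AlgebraicClosure ℚ)).Point) :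
    IsOpen {σ : AlgebraicClosure ℚ ≃ₐ[ℚ] AlgebraicClosure ℚ | σ • X = X} := by
  rcases X with _ | ⟨x, y, h⟩
  · have : {σ : AlgebraicClosure ℚ ≃ₐ[ℚ] AlgebraicClosure ℚ |
        σ • (Point.zero : (E⁄(AlgebraicClosure ℚ)).Point) = Point.zero} = Set.univ := by
      ext σ
      simp only [Set.mem_ofPred_eq, Set.mem_univ, iff_true]
      rfl
    rw [this]
    exact isOpen_univ
  · let F : IntermediateField ℚ (AlgebraicClosure ℚ) := IntermediateField.adjoin ℚ {x, y}
    have hAlg : Algebra.IsAlgebraic ℚ (AlgebraicClosure ℚ) := AlgebraicClosure.isAlgebraic ℚ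
    have hfd : FiniteDimensional ℚ F :=
      IntermediateField.finiteDimensional_adjoin
        (fun z _ => (hAlg.isAlgebraic z).isIntegral)
    have hF : IsOpen (F.fixingSubgroup :
        Set (AlgebraicClosure ℚ ≃ₐ[ℚ] AlgebraicClosure ℚ)) :=
      IntermediateField.fixingSubgroup_isOpen F
    have hsub : (F.fixingSubgroup : Set (AlgebraicClosure ℚ ≃ₐ[ℚ] AlgebraicClosure ℚ)) ⊆
        {σ | σ • (Point.some x y h : (E⁄(AlgebraicClosure ℚ)).Point) = Point.some x y h} := by
      intro σ hσ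
      have hσ' : ∀ z ∈ F, σ z = z := fun z hz =>
        (IntermediateField.mem_fixingSubgroup_iff F σ).mp hσ z hz
      have hx : σ x = x := hσ' x (IntermediateField.subset_adjoin ℚ _ (by simp))
      have hy : σ y = y := hσ' y (IntermediateField.subset_adjoin ℚ _ (by simp))
      show Point.map σ.toAlgHom (Point.some x y h) = Point.some x y h
      rw [Point.map_some]
      simp only [Point.some.injEq]
      exact ⟨hx, hy⟩
    -- the stabiliser is a subgroup containing an open subgroup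
    have hstab : {σ : AlgebraicClosure ℚ ≃ₐ[ℚ] AlgebraicClosure ℚ |
        σ • (Point.some x y h : (E⁄(AlgebraicClosure ℚ)).Point) = Point.some x y h} =
        ((MulAction.stabilizer (AlgebraicClosure ℚ ≃ₐ[ℚ] AlgebraicClosure ℚ)
          (Point.some x y h : (E⁄(AlgebraicClosure ℚ)).Point) : Subgroup _) : Set _) := by
      ext σ
      simp [MulAction.mem_stabilizer_iff]
    rw [hstab]
    refine Subgroup.isOpen_mono (H₁ := F.fixingSubgroup) ?_ hF
    intro σ hσ
    rw [MulAction.mem_stabilizer_iff]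
    exact hsub hσ

/-- A subgroup of `Gal(ℚ̄/ℚ)` containing the kernel of the action on the finite group `E[n]`
is open. -/
theorem isOpen_of_forall_fix {n : ℕ}
    (hfin : Finite (Submodule.torsionBy ℤ (E⁄(AlgebraicClosure ℚ)).Point n))
    (H : Subgroup (AlgebraicClosure ℚ ≃ₐ[ℚ] AlgebraicClosure ℚ))
    (hH : ∀ σ : AlgebraicClosure ℚ ≃ₐ[ℚ] AlgebraicClosure ℚ,
      (∀ x : Submodule.torsionBy ℤ (E⁄(AlgebraicClosure ℚ)).Point n, σ • x = x) → σ ∈ H) :
    IsOpen (H : Set (AlgebraicClosure ℚ ≃ₐ[ℚ] AlgebraicClosure ℚ)) := by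
  have hU : IsOpen (⋂ x : Submodule.torsionBy ℤ (E⁄(AlgebraicClosure ℚ)).Point n,
      {σ : AlgebraicClosure ℚ ≃ₐ[ℚ] AlgebraicClosure ℚ |
        σ • (x : (E⁄(AlgebraicClosure ℚ)).Point) = x}) :=
    isOpen_iInter_of_finite fun x => isOpen_setOf_smul_eq (x : (E⁄(AlgebraicClosure ℚ)).Point)
  refine Subgroup.isOpen_of_mem_nhds H (g := 1) ?_
  refine Filter.mem_of_superset (hU.mem_nhds ?_) ?_
  · simp only [Set.mem_iInter, Set.mem_ofPred_eq]
    intro x
    exact one_smul _ _
  · intro σ hσ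
    simp only [Set.mem_iInter, Set.mem_ofPred_eq] at hσ
    exact hH σ fun x => Subtype.ext (hσ x)

end Open

section Subgroups

variable {E : WeierstrassCurve ℚ} {n : ℕ}

/-- The subgroup of `Gal(ℚ̄/ℚ)` fixing a stable submodule `N` pointwise. -/
def fixSub (N : Submodule (ZMod n) (Submodule.torsionBy ℤ (E⁄(AlgebraicClosure ℚ)).Point n)) :
    Subgroup (AlgebraicClosure ℚ ≃ₐ[ℚ] AlgebraicClosure ℚ) where
  carrier := {σ | ∀ x ∈ N, σ • x = x}
  mul_mem' := by
    intro a b ha hb x hx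
    rw [mul_smul, hb x hx, ha x hx]
  one_mem' := fun x _ => one_smul _ x
  inv_mem' := by
    intro a ha x hx
    conv_lhs => rw [← ha x hx]
    rw [inv_smul_smul]

/-- The subgroup of `Gal(ℚ̄/ℚ)` acting trivially modulo a stable submodule `N`. -/
def cofixSub (N : Submodule (ZMod n) (Submodule.torsionBy ℤ (E⁄(AlgebraicClosure ℚ)).Point n))
    (hN : IsGaloisStable ℚ N) :
    Subgroup (AlgebraicClosure ℚ ≃ₐ[ℚ] AlgebraicClosure ℚ) where
  carrier := {σ | ∀ x, σ • x - x ∈ N}
  mul_mem' := by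
    intro a b ha hb x
    have h1 : (a * b) • x - x = a • (b • x - x) + (a • x - x) := by
      rw [mul_smul, smul_sub]; abel
    rw [h1]
    exact N.add_mem (hN a _ (hb x)) (ha x)
  one_mem' := fun x => by rw [one_smul, sub_self]; exact N.zero_mem
  inv_mem' := by
    intro a ha x
    have h1 : a⁻¹ • x - x = -(a⁻¹ • (a • x - x)) := by
      rw [smul_sub, inv_smul_smul]; abel
    rw [h1]
    exact N.neg_mem (hN a⁻¹ _ (ha x))

theorem fixSub_normal
    (N : Submodule (ZMod n) (Submodule.torsionBy ℤ (E⁄(AlgebraicClosure ℚ)).Point n))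
    (hN : IsGaloisStable ℚ N) : (fixSub N).Normal := by
  constructor
  intro a ha g x hx
  have h1 : g⁻¹ • x ∈ N := hN g⁻¹ x hx
  rw [mul_smul, mul_smul, ha _ h1, smul_inv_smul]

theorem cofixSub_normal
    (N : Submodule (ZMod n) (Submodule.torsionBy ℤ (E⁄(AlgebraicClosure ℚ)).Point n))
    (hN : IsGaloisStable ℚ N) : (cofixSub N hN).Normal := by
  constructor
  intro a ha g x
  have h1 : (g * a * g⁻¹) • x - x = g • (a • (g⁻¹ • x) - g⁻¹ • x) := by
    rw [mul_smul, mul_smul, smul_sub, smul_inv_smul]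
  rw [h1]
  exact hN g _ (ha _)

/-- Minkowski: an open normal subgroup of `Gal(ℚ̄/ℚ)` containing an inertia subgroup above
every prime is everything. -/
theorem mem_of_unramified (H : Subgroup (AlgebraicClosure ℚ ≃ₐ[ℚ] AlgebraicClosure ℚ))
    (hnormal : H.Normal)
    (hopen : IsOpen (H : Set (AlgebraicClosure ℚ ≃ₐ[ℚ] AlgebraicClosure ℚ)))
    (hunr : ∀ q : ℕ, q.Prime → ∃ A : ValuationSubring (AlgebraicClosure ℚ),
      A.LiesOverPrime q ∧ ∀ σ ∈ A.inertiaSubgroupIn ℚ, σ ∈ H)
    (σ : AlgebraicClosure ℚ ≃ₐ[ℚ] AlgebraicClosure ℚ) : σ ∈ H := by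
  have hker : (QuotientGroup.mk' H).ker = H := QuotientGroup.ker_mk' H
  have h := Fermat.Agent.Minkowski.minkowski_bridge (QuotientGroup.mk' H)
    (by rw [hker]; exact hopen)
    (fun q hq => by
      obtain ⟨A, hA, hAH⟩ := hunr q hq
      refine ⟨A, hA, fun τ hτ => ?_⟩
      have : τ ∈ (QuotientGroup.mk' H).ker := by rw [hker]; exact hAH τ hτ
      exact MonoidHom.mem_ker.mp this) σ
  have : σ ∈ (QuotientGroup.mk' H).ker := MonoidHom.mem_ker.mpr h
  rwa [hker] at this

end Subgroups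

section Main

/-- **S13 from its pieces**, for a given stable line `N`. -/
theorem s13_of_line (P : FreyPackage)
    (hcard : Nat.card (Submodule.torsionBy ℤ (P.freyCurve⁄(AlgebraicClosure ℚ)).Point P.p)
      = P.p ^ 2)
    (hodd : ∀ q : ℕ, q.Prime → q ≠ 2 → q ≠ P.p → P.GaloisRepUnramifiedAt q)
    (hU2 : ∀ A : ValuationSubring (AlgebraicClosure ℚ), A.LiesOverPrime 2 →
      ∀ σ ∈ A.inertiaSubgroupIn ℚ,
      ∀ x : Submodule.torsionBy ℤ (P.freyCurve⁄(AlgebraicClosure ℚ)).Point P.p,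
        σ • (σ • x - x) = σ • x - x)
    (hR : ∀ x : Submodule.torsionBy ℤ (P.freyCurve⁄(AlgebraicClosure ℚ)).Point P.p,
      (∀ σ : AlgebraicClosure ℚ ≃ₐ[ℚ] AlgebraicClosure ℚ, σ • x = x) → x = 0)
    (N : Submodule (ZMod P.p)
        (Submodule.torsionBy ℤ (P.freyCurve⁄(AlgebraicClosure ℚ)).Point P.p))
    (hN : IsGaloisStable ℚ N) (hbot : N ≠ ⊥) (htop : N ≠ ⊤)
    (hNp : ∀ A : ValuationSubring (AlgebraicClosure ℚ), A.LiesOverPrime P.p →
        (∀ σ ∈ A.inertiaSubgroupIn ℚ,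
          ∀ x : Submodule.torsionBy ℤ (P.freyCurve⁄(AlgebraicClosure ℚ)).Point P.p,
            σ • x - x ∈ N) ∨
        (∀ σ ∈ A.inertiaSubgroupIn ℚ, ∀ x ∈ N, σ • x = x)) :
    HasGaloisStableCofixedLine (K := AlgebraicClosure ℚ) ℚ P.freyCurve P.p := by
  have hp : P.p.Prime := P.pp
  have : Fact P.p.Prime := ⟨hp⟩
  have hfin : Finite (Submodule.torsionBy ℤ (P.freyCurve⁄(AlgebraicClosure ℚ)).Point P.p) :=
    Nat.finite_of_card_ne_zero (by rw [hcard]; exact pow_ne_zero _ hp.ne_zero)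
  -- the local conditions away from `p`
  have hloc : ∀ q : ℕ, q.Prime → q ≠ P.p → ∀ A : ValuationSubring (AlgebraicClosure ℚ),
      A.LiesOverPrime q → ∀ σ ∈ A.inertiaSubgroupIn ℚ,
      (∀ x ∈ N, σ • x = x) ∧
      (∀ x : Submodule.torsionBy ℤ (P.freyCurve⁄(AlgebraicClosure ℚ)).Point P.p,
        σ • x - x ∈ N) := by
    intro q hq hqp A hA σ hσ
    by_cases hq2 : q = 2
    · subst hq2
      exact unipotent_line hcard N hbot htop
        (DistribSMul.toAddMonoidHom
          (Submodule.torsionBy ℤ (P.freyCurve⁄(AlgebraicClosure ℚ)).Point P.p) σ)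
        (fun x => hU2 A hA σ hσ x) (fun x hx => hN σ x hx)
    · have h : ∀ x : Submodule.torsionBy ℤ (P.freyCurve⁄(AlgebraicClosure ℚ)).Point P.p,
          σ • x = x := hodd q hq hq2 hqp A hA σ hσ
      exact ⟨fun x _ => h x, fun x => by rw [h x, sub_self]; exact N.zero_mem⟩
  obtain ⟨A₀, hA₀⟩ := Fermat.Agent.FrobExists.exists_valuationSubring_liesOver P.p hp
  rcases hNp A₀ hA₀ with hco | hfix
  · -- the action on `V / N` is unramified everywhere: `N` is a cofixed line
    have hall : ∀ σ, σ ∈ cofixSub N hN := by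
      refine mem_of_unramified (cofixSub N hN) (cofixSub_normal N hN)
        (isOpen_of_forall_fix hfin _ ?_) ?_
      · intro σ hσ x
        rw [hσ x, sub_self]
        exact N.zero_mem
      · intro q hq
        by_cases hqp : q = P.p
        · subst hqp
          exact ⟨A₀, hA₀, fun σ hσ => hco σ hσ⟩
        · obtain ⟨A, hA⟩ := Fermat.Agent.FrobExists.exists_valuationSubring_liesOver q hq
          exact ⟨A, hA, fun σ hσ => (hloc q hq hqp A hA σ hσ).2⟩
    exact ⟨N, hN, hbot, htop, fun σ x => hall σ x⟩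
  · -- the action on `N` is unramified everywhere: `N` consists of rational points, contradiction
    exfalso
    have hall : ∀ σ, σ ∈ fixSub N := by
      refine mem_of_unramified (fixSub N) (fixSub_normal N hN)
        (isOpen_of_forall_fix hfin _ ?_) ?_
      · intro σ hσ x _
        exact hσ x
      · intro q hq
        by_cases hqp : q = P.p
        · subst hqp
          exact ⟨A₀, hA₀, fun σ hσ => hfix σ hσ⟩
        · obtain ⟨A, hA⟩ := Fermat.Agent.FrobExists.exists_valuationSubring_liesOver q hq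
          exact ⟨A, hA, fun σ hσ => (hloc q hq hqp A hA σ hσ).1⟩
    apply hbot
    rw [eq_bot_iff]
    intro x hx
    rw [Submodule.mem_bot]
    exact hR x fun σ => hall σ x hx

/-- **S13 from its pieces** (`E[p]` nontrivial, finite of cardinality at most `p ^ 2`; the
dichotomy at `p` may use `#E[p] = p ^ 2`). -/
theorem s13_of_pieces (P : FreyPackage)
    (hnt : Nontrivial (Submodule.torsionBy ℤ (P.freyCurve⁄(AlgebraicClosure ℚ)).Point P.p))
    (hfin : Finite (Submodule.torsionBy ℤ (P.freyCurve⁄(AlgebraicClosure ℚ)).Point P.p))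
    (hle : Nat.card (Submodule.torsionBy ℤ (P.freyCurve⁄(AlgebraicClosure ℚ)).Point P.p)
      ≤ P.p ^ 2)
    (hodd : ∀ q : ℕ, q.Prime → q ≠ 2 → q ≠ P.p → P.GaloisRepUnramifiedAt q)
    (hU2 : ∀ A : ValuationSubring (AlgebraicClosure ℚ), A.LiesOverPrime 2 →
      ∀ σ ∈ A.inertiaSubgroupIn ℚ,
      ∀ x : Submodule.torsionBy ℤ (P.freyCurve⁄(AlgebraicClosure ℚ)).Point P.p,
        σ • (σ • x - x) = σ • x - x)
    (hR : ∀ x : Submodule.torsionBy ℤ (P.freyCurve⁄(AlgebraicClosure ℚ)).Point P.p,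
      (∀ σ : AlgebraicClosure ℚ ≃ₐ[ℚ] AlgebraicClosure ℚ, σ • x = x) → x = 0)
    (hNp : Nat.card (Submodule.torsionBy ℤ (P.freyCurve⁄(AlgebraicClosure ℚ)).Point P.p)
        = P.p ^ 2 →
      ∀ N : Submodule (ZMod P.p)
        (Submodule.torsionBy ℤ (P.freyCurve⁄(AlgebraicClosure ℚ)).Point P.p),
      IsGaloisStable ℚ N → N ≠ ⊥ → N ≠ ⊤ →
      ∀ A : ValuationSubring (AlgebraicClosure ℚ), A.LiesOverPrime P.p →
        (∀ σ ∈ A.inertiaSubgroupIn ℚ,
          ∀ x : Submodule.torsionBy ℤ (P.freyCurve⁄(AlgebraicClosure ℚ)).Point P.p,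
            σ • x - x ∈ N) ∨
        (∀ σ ∈ A.inertiaSubgroupIn ℚ, ∀ x ∈ N, σ • x = x))
    (hred : ¬ GaloisRepIsIrreducible (K := AlgebraicClosure ℚ) ℚ P.freyCurve P.p) :
    HasGaloisStableCofixedLine (K := AlgebraicClosure ℚ) ℚ P.freyCurve P.p := by
  have : Fact P.p.Prime := ⟨P.pp⟩
  -- a stable line
  obtain ⟨N, hN, hbot, htop⟩ : ∃ N : Submodule (ZMod P.p)
      (Submodule.torsionBy ℤ (P.freyCurve⁄(AlgebraicClosure ℚ)).Point P.p),
      IsGaloisStable ℚ N ∧ N ≠ ⊥ ∧ N ≠ ⊤ := by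
    by_contra hcon
    apply hred
    refine ⟨hnt, fun N hN => ?_⟩
    by_contra h
    rw [not_or] at h
    exact hcon ⟨N, hN, h.1, h.2⟩
  have hcard := Fermat.Agent.S13AtP.card_eq_sq_of_line hle N hbot htop
  exact s13_of_line P hcard hodd hU2 hR N hN hbot htop (hNp hcard N hN hbot htop)

end Main

end Fermat.Agent.S13Final
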