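/-
S13, piece (U2) (helper13): generic "node at the origin" toolkit.

A Weierstrass curve `y² + a₁xy = x³ + a₂x² + a₄x` over a valued field with `a₁, a₂` integral,
`v a₄ < 1` and `b₂` a unit reduces to a nodal cubic with node at the origin.  We prove:

* `inG0_add`, `inG0_nsmul` : the points with `1 ≤ v x` (together with `0`) form a subgroup `G0`;
* `nonsing_red_of_unit`  : a point with `v x = 1` has nonsingular reduction;
* `inG1_map_sub_of_inG0` : an automorphism acting trivially on the residue field moves a point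
  of `G0` within the kernel of reduction `G1`;
* `lt_px_of_torsion`     : a point of odd order outside `G0` has `v a₄ < v x < 1`;
* `inG0_sub_of_dir`      : two points with `v a₄ < v x₁ = v x₂ < 1` and the same tangent
  direction `y/x` modulo the maximal ideal differ by an element of `G0`;
* `map_sub_fixed`        : the resulting unipotence statement for torsion points.
-/
import Mathlib
import Fermat.Agent.S05.H65.Sym
import Fermat.Agent.S05.H75.KerRed
import Fermat.Agent.S05.H5.RedB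
import Fermat.Agent.S05.H5.Sing

set_option autoImplicit false

namespace Fermat.Agent.S13Two

open WeierstrassCurve WeierstrassCurve.Affine S05H65 S05H75 S05H5

variable {K : Type*} [Field K] {Γ₀ : Type*} [LinearOrderedCommGroupWithZero Γ₀]

/-- The curve has the shape `y² + a₁xy = x³ + a₂x² + a₄x` with integral `a₁, a₂`, with `a₄` in
the maximal ideal and with `b₂` a unit: its reduction has a node at the origin. -/
structure NodeAtOrigin (v : Valuation K Γ₀) (W : Affine K) : Prop where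
  ha₁ : v W.a₁ ≤ 1
  ha₂ : v W.a₂ ≤ 1
  ha₃ : W.a₃ = 0
  ha₄ : v W.a₄ < 1
  ha₆ : W.a₆ = 0
  hb₂ : v W.b₂ = 1

namespace NodeAtOrigin

variable {v : Valuation K Γ₀} {W : Affine K}

theorem b₄_eq (h : NodeAtOrigin v W) : W.b₄ = 2 * W.a₄ := by
  simp only [WeierstrassCurve.b₄, h.ha₃]; ring

theorem b₆_eq (h : NodeAtOrigin v W) : W.b₆ = 0 := by
  simp only [WeierstrassCurve.b₆, h.ha₃, h.ha₆]; ring

theorem b₈_eq (h : NodeAtOrigin v W) : W.b₈ = - W.a₄ ^ 2 := by
  simp only [WeierstrassCurve.b₈, h.ha₃, h.ha₆]; ring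

theorem vb₂ (h : NodeAtOrigin v W) : v W.b₂ ≤ 1 := h.hb₂.le

theorem vb₄ (h : NodeAtOrigin v W) : v W.b₄ ≤ 1 := by
  rw [h.b₄_eq]; exact vle_mul v (vle_ofNat v 2) h.ha₄.le

theorem vb₆ (h : NodeAtOrigin v W) : v W.b₆ ≤ 1 := by
  rw [h.b₆_eq, map_zero]; exact zero_le_one

theorem vb₈ (h : NodeAtOrigin v W) : v W.b₈ ≤ 1 := by
  rw [h.b₈_eq, Valuation.map_neg]; exact vle_pow v h.ha₄.le 2

theorem va₃ (h : NodeAtOrigin v W) : v W.a₃ ≤ 1 := by
  rw [h.ha₃, map_zero]; exact zero_le_one

theorem va₆ (h : NodeAtOrigin v W) : v W.a₆ ≤ 1 := by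
  rw [h.ha₆, map_zero]; exact zero_le_one

theorem psi2sq_eq (h : NodeAtOrigin v W) (x : K) :
    psi2sq W x = x * (4 * x ^ 2 + W.b₂ * x + 4 * W.a₄) := by
  simp only [psi2sq, h.b₄_eq, h.b₆_eq]; ring

theorem dupNum_eq (h : NodeAtOrigin v W) (x : K) :
    dupNum W x = (x ^ 2 - W.a₄) ^ 2 := by
  simp only [dupNum, h.b₄_eq, h.b₆_eq, h.b₈_eq]; ring

end NodeAtOrigin

section Reduction

variable {v : Valuation K Γ₀} {W : Affine K}

/-- A point with unit `x`-coordinate has nonsingular reduction. -/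
theorem nonsing_red_of_unit (hN : NodeAtOrigin v W) {x y : K} (h : W.Equation x y)
    (hx : v x = 1) :
    ¬ (v (W.a₁ * y - (3 * x ^ 2 + 2 * W.a₂ * x + W.a₄)) < 1 ∧
        v (2 * y + W.a₁ * x + W.a₃) < 1) := by
  rintro ⟨hFx, hFy⟩
  have hpsi : (2 * y + W.a₁ * x + W.a₃) ^ 2 = x * (4 * x ^ 2 + W.b₂ * x + 4 * W.a₄) := by
    have h1 := psi_sq_formula h
    rw [← hN.psi2sq_eq]
    simp only [psi2sq]
    rw [← h1]
    simp only [Affine.negY]
    ring
  have hlin : W.a₁ * (2 * y + W.a₁ * x + W.a₃)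
      - 2 * (W.a₁ * y - (3 * x ^ 2 + 2 * W.a₂ * x + W.a₄))
      = x * (W.b₂ + 6 * x) + 2 * W.a₄ := by
    simp only [WeierstrassCurve.b₂, hN.ha₃]
    ring
  have hx0 : x ≠ 0 := by
    rintro rfl
    rw [map_zero] at hx
    exact zero_ne_one hx
  -- cancelling the unit `x`
  have cancel : ∀ z : K, v (x * z) < 1 → v z < 1 := by
    intro z hz
    rwa [map_mul, hx, one_mul] at hz
  have h4a : v (4 * W.a₄) < 1 := vlt_mul_left v (vle_ofNat v 4) hN.ha₄
  have h2a : v (2 * W.a₄) < 1 := vlt_mul_left v (vle_ofNat v 2) hN.ha₄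
  have hA : v (4 * x + W.b₂) < 1 := by
    have h1 : v (x * (4 * x ^ 2 + W.b₂ * x + 4 * W.a₄)) < 1 := by
      rw [← hpsi, pow_two]
      exact vlt_mul_left v hFy.le hFy
    have h2 := cancel _ h1
    have h3 : v (x * (4 * x + W.b₂)) < 1 := by
      have e : x * (4 * x + W.b₂) = (4 * x ^ 2 + W.b₂ * x + 4 * W.a₄) - 4 * W.a₄ := by ring
      rw [e]
      exact vlt_sub v h2 h4a
    exact cancel _ h3
  have hB : v (W.b₂ + 6 * x) < 1 := by
    have h1 : v (x * (W.b₂ + 6 * x) + 2 * W.a₄) < 1 := by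
      rw [← hlin]
      exact vlt_sub v (vlt_mul_left v hN.ha₁ hFy) (vlt_mul_left v (vle_ofNat v 2) hFx)
    have h3 : v (x * (W.b₂ + 6 * x)) < 1 := by
      have e : x * (W.b₂ + 6 * x) = (x * (W.b₂ + 6 * x) + 2 * W.a₄) - 2 * W.a₄ := by ring
      rw [e]
      exact vlt_sub v h1 h2a
    exact cancel _ h3
  have h2x : v (2 * x) < 1 := by
    have e : 2 * x = (W.b₂ + 6 * x) - (4 * x + W.b₂) := by ring
    rw [e]
    exact vlt_sub v hB hA
  have hb : v W.b₂ < 1 := by
    have e : W.b₂ = (4 * x + W.b₂) - 2 * (2 * x) := by ring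
    rw [e]
    exact vlt_sub v hA (vlt_mul_left v (vle_ofNat v 2) h2x)
  rw [hN.hb₂] at hb
  exact lt_irrefl _ hb

end Reduction

section Galois

variable [DecidableEq K]
variable {R S : Type*} [CommRing R] [CommRing S] [Algebra R S] [Algebra R K] [Algebra S K]
  [IsScalarTower R S K]

/-- The "identity component": the origin together with the points with `1 ≤ v x`. -/
def InG0 (v : Valuation K Γ₀) {W : Affine K} (P : W.Point) : Prop := P = 0 ∨ 1 ≤ v (px P)

/-- An automorphism acting trivially modulo the maximal ideal moves a point of the identity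
component within the kernel of reduction. -/
theorem inG1_map_sub_of_inG0 (v : Valuation K Γ₀) (W' : Affine R)
    (hN : NodeAtOrigin v (W'⁄K))
    (σ : K →ₐ[S] K) (hσ : ∀ a : K, v a ≤ 1 → v (σ a - a) < 1)
    (hσ' : ∀ a : K, 1 < v a → 1 < v (σ a))
    (w : (W'⁄K).Point) (hw : InG0 v w) : InG1 v (Point.map σ w - w) := by
  rcases w with _ | ⟨x, y, h⟩
  · left
    exact sub_self _
  · have hξ : 1 ≤ v x := by
      rcases hw with hw | hw
      · exact absurd hw (Point.some_ne_zero h)
      · simpa using hw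
    have hmap : Point.map σ (Point.some x y h) = Point.some (σ x) (σ y)
        ((W'.baseChange_nonsingular σ.injective x y).mpr h) := Point.map_some σ h
    rw [hmap]
    by_cases hx : v x ≤ 1
    · have hy : v y ≤ 1 := v_y_le_one v (W'⁄K) hN.ha₁ hN.ha₂ hN.va₃ hN.ha₄.le hN.va₆ h.1 hx
      have hns := nonsing_red_of_unit hN h.1 (le_antisymm hx hξ)
      have hσx : v (x - σ x) < 1 := by rw [Valuation.map_sub_swap]; exact hσ x hx
      have hσy : v (y - σ y) < 1 := by rw [Valuation.map_sub_swap]; exact hσ y hy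
      have hσx1 : v (σ x) ≤ 1 := by
        have : σ x = (σ x - x) + x := by ring
        rw [this]; exact vle_add v (le_of_lt (hσ x hx)) hx
      have hB : InG1 v (Point.some x y h - Point.some (σ x) (σ y)
          ((W'.baseChange_nonsingular σ.injective x y).mpr h)) :=
        sub_eq_zero_or_one_lt_v_px v (W'⁄K) hN.ha₁ hN.ha₂ h
          ((W'.baseChange_nonsingular σ.injective x y).mpr h) hx hσx1 hσx hσy hns
      have := inG1_neg v hB
      rwa [neg_sub] at this
    · rw [not_le] at hx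
      have h1 : InG1 v (Point.some x y h : (W'⁄K).Point) := Or.inr hx
      have h2 : InG1 v (Point.some (σ x) (σ y)
          ((W'.baseChange_nonsingular σ.injective x y).mpr h) : (W'⁄K).Point) :=
        Or.inr (hσ' x hx)
      exact inG1_sub v hN.vb₂ hN.vb₄ hN.vb₆ hN.vb₈ h2 h1

/-- A torsion point (of order prime to the residue characteristic) of the identity component
is fixed by an automorphism acting trivially modulo the maximal ideal. -/
theorem map_eq_self_of_inG0 (v : Valuation K Γ₀) (W' : Affine R)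
    (hN : NodeAtOrigin v (W'⁄K))
    (σ : K →ₐ[S] K) (hσ : ∀ a : K, v a ≤ 1 → v (σ a - a) < 1)
    (hσ' : ∀ a : K, 1 < v a → 1 < v (σ a))
    {n : ℕ} (hn : v (n : K) = 1) (w : (W'⁄K).Point) (hnw : n • w = 0) (hw : InG0 v w) :
    Point.map σ w = w := by
  have h1 := inG1_map_sub_of_inG0 v W' hN σ hσ hσ' w hw
  have htor : n • (Point.map σ w - w) = 0 := by
    rw [smul_sub, hnw, ← map_nsmul, hnw, map_zero, sub_zero]
  exact sub_eq_zero.mp (inG1_torsion_free v hN.vb₂ hN.vb₄ hN.vb₆ hN.vb₈ hn h1 htor)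

end Galois

end Fermat.Agent.S13Two
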