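/-
S13, piece (U2) (helper13): generic unipotence statement at a "node at the origin".

For a curve `y² + a₁xy = x³ + a₂x² + a₄x` with `a₁, a₂` integral, `0 < v a₄ < 1` and `b₂` a unit,
an automorphism `σ` which preserves the valuation and acts trivially modulo the maximal ideal
satisfies `σ(σX - X) = σX - X` for every torsion point `X` of odd order prime to the residue
characteristic.
-/
import Mathlib
import Fermat.Agent.S13.TwoNodal
import Fermat.Agent.S13.H65.Branch
import Fermat.Agent.S05.H27.OfValuation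

set_option autoImplicit false

namespace Fermat.Agent.S13Two

open WeierstrassCurve WeierstrassCurve.Affine S05H65 S05H75 S05H5

variable {K : Type*} [Field K] [DecidableEq K] {Γ₀ : Type*} [LinearOrderedCommGroupWithZero Γ₀]
variable {R S : Type*} [CommRing R] [CommRing S] [Algebra R S] [Algebra R K] [Algebra S K]
  [IsScalarTower R S K]

theorem inG0_neg {v : Valuation K Γ₀} {W : Affine K} {P : W.Point} (hP : InG0 v P) :
    InG0 v (-P) := by
  rcases hP with h | h
  · left; rw [h, neg_zero]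
  · right; rwa [px_neg]

/-- For a torsion point `X` of odd order prime to the residue characteristic, `σX - X` lies in
the identity component. -/
theorem inG0_map_sub (v : Valuation K Γ₀) (W' : Affine R)
    (hN : NodeAtOrigin v (W'⁄K)) (ha₄0 : (W'⁄K).a₄ ≠ 0)
    (σ : K →ₐ[S] K) (hσ : ∀ a : K, v a ≤ 1 → v (σ a - a) < 1)
    (hσv : ∀ a : K, v (σ a) = v a)
    {n : ℕ} (hodd : Odd n) (hn : v (n : K) = 1) (X : (W'⁄K).Point) (hX : n • X = 0) :
    InG0 v (Point.map σ X - X) := by
  classical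
  have hσ' : ∀ a : K, 1 < v a → 1 < v (σ a) := fun a ha => by rw [hσv]; exact ha
  by_cases hX0 : InG0 v X
  · have := map_eq_self_of_inG0 v W' hN σ hσ hσ' hn X hX hX0
    rw [this, sub_self]
    exact Or.inl rfl
  set V := S05H27.ofValuation v with hV
  set h := V.w (W'⁄K).a₄ with hh_def
  have hh : 0 < h := (S05H27.zero_lt_w_iff v ha₄0).mpr hN.ha₄
  have N : S13H65.Centred (W'⁄K) := ⟨hN.ha₃, hN.ha₆⟩
  have C : S13H65.Core2 V (W'⁄K).a₄ (W'⁄K).b₂ h :=
    ⟨(S05H27.le_one_iff_ge v 2).mp (vle_ofNat v 2), (S05H27.eq_one_iff_ex v _).mp hN.hb₂,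
      ⟨ha₄0, rfl⟩, hh⟩
  rcases X with _ | ⟨x, y, hxy⟩
  · exact absurd (Or.inl rfl) hX0
  have hx1 : v x < 1 := by
    by_contra hcon
    exact hX0 (Or.inr (not_lt.mp hcon))
  obtain ⟨m, hm⟩ := S13H65.rho2_torsion N C (Point.some x y hxy) n hX
  rw [S13H65.rho2_of_ne (Point.some_ne_zero _), px_some] at hm
  rcases AVal.regime V h x with ⟨α, hx, hα⟩ | ⟨α, hx, hα, hα'⟩ | hx
  · exact absurd ((S05H27.one_le_iff_notM v x).mpr (hx.notM hα)) (not_le.2 hx1)
  · -- the main case: `0 < w x < h`
    have hmap : Point.map σ (Point.some x y hxy) = Point.some (σ x) (σ y)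
        ((W'.baseChange_nonsingular σ.injective x y).mpr hxy) := Point.map_some σ hxy
    rw [hmap]
    have hσx0 : σ x ≠ 0 := by
      intro h0
      exact hx.1 ((map_eq_zero_iff σ σ.injective).mp h0)
    have hσx : V.Ex (σ x) α :=
      ⟨hσx0, ((S05H27.w_eq_w_iff v hσx0 hx.1).mpr (hσv x)).trans hx.2⟩
    have ha₁ : V.Ge (W'⁄K).a₁ 0 := (S05H27.le_one_iff_ge v _).mp hN.ha₁
    have ha₂ : V.Ge (W'⁄K).a₂ 0 := (S05H27.le_one_iff_ge v _).mp hN.ha₂
    have hT : v (y / x) ≤ 1 :=
      (S05H27.le_one_iff_ge v _).mpr (S13H65.branch_integral N C ha₁ ha₂ hxy.1 hx hα hα')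
    have hbr : V.Gt (y / x - σ y / σ x) 0 := by
      rw [← S05H27.lt_one_iff_gt, Valuation.map_sub_swap, ← map_div₀]
      exact hσ _ hT
    have key := S13H65.same_branch_sub N C hxy
      ((W'.baseChange_nonsingular σ.injective x y).mpr hxy) hx hσx hα hα' hbr
    have key' : InG0 v (Point.some x y hxy - Point.some (σ x) (σ y)
        ((W'.baseChange_nonsingular σ.injective x y).mpr hxy)) := by
      rcases key with key | key
      · exact Or.inl key
      · exact Or.inr ((S05H27.one_le_iff_notM v _).mpr key)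
    have := inG0_neg key'
    rwa [neg_sub] at this
  · -- `w x ≥ h` contradicts the oddness of `n`
    exfalso
    rw [AVal.cl_of_ge hh hx] at hm
    have h1 : ((n : ℤ) - 2 * m) • h = 0 := by
      rw [sub_smul, natCast_zsmul, hm, mul_comm, mul_smul, two_smul, sub_self]
    have h3 : (n : ℤ) - 2 * m = 0 := by
      rcases smul_eq_zero.mp h1 with h4 | h4
      · exact h4
      · exact absurd h4 hh.ne'
    obtain ⟨k, hk⟩ := hodd
    omega

/-- Unipotence: `σ(σX - X) = σX - X` for every torsion point `X` of odd order prime to the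
residue characteristic. -/
theorem map_sub_fixed (v : Valuation K Γ₀) (W' : Affine R)
    (hN : NodeAtOrigin v (W'⁄K)) (ha₄0 : (W'⁄K).a₄ ≠ 0)
    (σ : K →ₐ[S] K) (hσ : ∀ a : K, v a ≤ 1 → v (σ a - a) < 1)
    (hσv : ∀ a : K, v (σ a) = v a)
    {n : ℕ} (hodd : Odd n) (hn : v (n : K) = 1) (X : (W'⁄K).Point) (hX : n • X = 0) :
    Point.map σ (Point.map σ X - X) = Point.map σ X - X := by
  have hσ' : ∀ a : K, 1 < v a → 1 < v (σ a) := fun a ha => by rw [hσv]; exact ha
  have hY := inG0_map_sub v W' hN ha₄0 σ hσ hσv hodd hn X hX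
  have htor : n • (Point.map σ X - X) = 0 := by
    rw [smul_sub, hX, ← map_nsmul, hX, map_zero, sub_zero]
  exact map_eq_self_of_inG0 v W' hN σ hσ hσ' hn _ htor hY

end Fermat.Agent.S13Two
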