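/-
S13, piece (U2) (helper13): the inertia group at `2` acts unipotently on the `p`-torsion of the
Frey curve: `σ(σx - x) = σx - x` for `σ` in the inertia group of a place over `2`.
-/
import Mathlib
import Fermat.Prelude.Def_FLTPrelim_Ramification
import Fermat.Agent.S13.TwoUnip
import Fermat.Agent.S13.TwoDecomp
import Fermat.Agent.S05.H5.IntVal
import Fermat.Agent.S05.H75.FreyData

set_option autoImplicit false

namespace Fermat.Agent.S13Two

open WeierstrassCurve WeierstrassCurve.Affine S05H65 S05H75 S05H5 Fermat.Agent.FreyLib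

section FreyTwo

variable {K : Type*} [Field K] [Algebra ℚ K] {Γ₀ : Type*} [LinearOrderedCommGroupWithZero Γ₀]

/-- `2 ∣ a₄` for the integral Frey curve. -/
theorem frey_two_dvd_a₄ (P : FreyPackage) : (2 : ℤ) ∣ P.freyCurveInt.a₄ := by
  have h16 := sixteen_mul_a₄ P
  obtain ⟨k, hk⟩ := thirtytwo_dvd_b_pow P
  refine ⟨-(P.a ^ P.p) * k, ?_⟩
  have : 16 * P.freyCurveInt.a₄ = 16 * (2 * (-(P.a ^ P.p) * k)) := by
    rw [h16, hk]; ring
  exact mul_left_cancel₀ (by norm_num) this

theorem frey_a₄_ne_zero (P : FreyPackage) : P.freyCurveInt.a₄ ≠ 0 := by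
  intro h0
  have h16 := sixteen_mul_a₄ P
  rw [h0, mul_zero] at h16
  have h1 : P.a ^ P.p * P.b ^ P.p = 0 := by linarith
  rcases mul_eq_zero.mp h1 with h | h
  · exact P.ha0 (pow_eq_zero_iff P.hp0 |>.mp h)
  · exact P.hb0 (pow_eq_zero_iff P.hp0 |>.mp h)

/-- `b₂ = b^p - a^p` is odd. -/
theorem frey_b₂_odd (P : FreyPackage) : ¬ (2 : ℤ) ∣ P.freyCurveInt.b₂ := by
  rw [freyCurveInt_b₂]
  have h1 := a_pow_emod_four P
  have h2 := thirtytwo_dvd_b_pow P
  omega

/-- `S05H75.frey_baseChange_eq` for the affine base change notation. -/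
theorem frey_baseChange_affine (P : FreyPackage) :
    (P.freyCurve⁄K) = P.freyCurveInt.map (Int.castRingHom K) :=
  frey_baseChange_eq (K := K) P

/-- The Frey curve has a node at the origin at every valuation over `2`. -/
theorem frey_nodeAtOrigin (P : FreyPackage) (v : Valuation K Γ₀) (hv2 : v (2 : K) < 1) :
    NodeAtOrigin v (P.freyCurve⁄K) := by
  have hv2' : v ((2 : ℕ) : K) < 1 := by simpa using hv2
  rw [frey_baseChange_affine (K := K) P]
  refine ⟨?_, ?_, ?_, ?_, ?_, ?_⟩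
  · rw [map_a₁, eq_intCast]; exact vle_intCast v _
  · rw [map_a₂, eq_intCast]; exact vle_intCast v _
  · rw [map_a₃, freyCurveInt_a₃, map_zero]
  · rw [map_a₄, eq_intCast]
    exact v_intCast_lt_one v hv2' (by exact_mod_cast frey_two_dvd_a₄ P)
  · rw [map_a₆, freyCurveInt_a₆, map_zero]
  · rw [map_b₂, eq_intCast]
    exact v_intCast_eq_one v Nat.prime_two hv2' (by exact_mod_cast frey_b₂_odd P)

theorem frey_a₄_ne_zero' [CharZero K] (P : FreyPackage) : (P.freyCurve⁄K).a₄ ≠ 0 := by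
  rw [frey_baseChange_affine (K := K) P, map_a₄, eq_intCast]
  exact_mod_cast frey_a₄_ne_zero P

end FreyTwo

/-- (U2): the inertia group at `2` acts unipotently on the `p`-torsion of the Frey curve. -/
theorem frey_inertia_two_unipotent (P : FreyPackage) (A : ValuationSubring (AlgebraicClosure ℚ))
    (hA : A.LiesOverPrime 2) (σ : AlgebraicClosure ℚ ≃ₐ[ℚ] AlgebraicClosure ℚ)
    (hσ : σ ∈ A.inertiaSubgroupIn ℚ)
    (x : Submodule.torsionBy ℤ (P.freyCurve⁄(AlgebraicClosure ℚ)).Point P.p) :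
    σ • (σ • x - x) = σ • x - x := by
  have hv2 : A.valuation ((2 : ℕ) : AlgebraicClosure ℚ) < 1 := A.mem_nonunits_iff.mp hA
  have hv2' : A.valuation (2 : AlgebraicClosure ℚ) < 1 := by simpa using hv2
  have hN := frey_nodeAtOrigin (K := AlgebraicClosure ℚ) P A.valuation hv2'
  have ha₄0 := frey_a₄_ne_zero' (K := AlgebraicClosure ℚ) P
  have hdec := inertiaIn_mem_decomp A σ hσ
  have hσ1 : ∀ a : AlgebraicClosure ℚ, A.valuation a ≤ 1 →
      A.valuation (σ.toAlgHom a - a) < 1 := by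
    intro a ha
    have ha' : a ∈ A := (A.valuation_le_one_iff a).mp ha
    exact A.mem_nonunits_iff.mp (inertiaIn_sub_mem_nonunits A σ hσ ha')
  have : Algebra.IsAlgebraic ℚ (AlgebraicClosure ℚ) := AlgebraicClosure.isAlgebraic ℚ
  have hσv : ∀ a : AlgebraicClosure ℚ, A.valuation (σ.toAlgHom a) = A.valuation a :=
    fun a => decomp_val_eq A σ hdec a
  have hp2 : (2 : ℕ) ≠ P.p := by
    have := P.hp5
    omega
  have hn : A.valuation ((P.p : ℕ) : AlgebraicClosure ℚ) = 1 :=
    v_prime_eq_one A.valuation Nat.prime_two hv2 P.pp hp2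
  have hX : P.p • (x : (P.freyCurve⁄(AlgebraicClosure ℚ)).Point) = 0 := by
    have := x.2
    rw [Submodule.mem_torsionBy_iff] at this
    rw [← natCast_zsmul]
    exact this
  have key := map_sub_fixed A.valuation P.freyCurve hN ha₄0 σ.toAlgHom hσ1 hσv P.hp_odd hn
    (x : (P.freyCurve⁄(AlgebraicClosure ℚ)).Point) hX
  apply Subtype.ext
  exact key

end Fermat.Agent.S13Two
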