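/-
S13 piece (Np)(c): at ANY odd prime `q` (in particular `q = p`), an automorphism acting
trivially modulo the maximal ideal moves every `n`-torsion point (`n` odd) of a curve with good or
nodal (`v d = v e ^ n`) reduction inside the kernel of reduction `G₁`.

This is the S05 machinery with the final "`G₁` has no `n`-torsion" step removed, hence without
the hypothesis `v n = 1`.
-/
import Mathlib
import Fermat.Prelude.Def_FLTPrelim_Ramification
import Fermat.Agent.S05.H5.Assembly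
import Fermat.Agent.S05.H75.FreyData

set_option autoImplicit false

namespace Fermat.Agent.S13NpC

open WeierstrassCurve WeierstrassCurve.Affine WeierstrassCurve.Affine.Point S05H65 S05H75 S05H5

section GaloisCore

variable {K : Type*} [Field K] [DecidableEq K] {Γ₀ : Type*} [LinearOrderedCommGroupWithZero Γ₀]
variable {R S : Type*} [CommRing R] [CommRing S] [Algebra R S] [Algebra R K] [Algebra S K]
  [IsScalarTower R S K]

/-- Good reduction: `σ X - X` lies in the kernel of reduction, for EVERY point `X`. -/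
theorem inG1_map_sub_of_good_reduction (v : Valuation K Γ₀) (W' : Affine R)
    (ha₁ : v (W'⁄K).a₁ ≤ 1) (ha₂ : v (W'⁄K).a₂ ≤ 1) (ha₃ : v (W'⁄K).a₃ ≤ 1)
    (ha₄ : v (W'⁄K).a₄ ≤ 1) (ha₆ : v (W'⁄K).a₆ ≤ 1)
    (hΔ : ¬ v (W'⁄K).Δ < 1)
    (σ : K →ₐ[S] K) (hσ : ∀ a : K, v a ≤ 1 → v (σ a - a) < 1)
    (hσ' : ∀ a : K, 1 < v a → 1 < v (σ a))
    (X : (W'⁄K).Point) : InG1 v (Point.map σ X - X) := by
  obtain ⟨hb₂, hb₄, hb₆, hb₈⟩ := v_b_le_one v (W'⁄K) ha₁ ha₂ ha₃ ha₄ ha₆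
  rcases X with _ | ⟨x, y, h⟩
  · left
    exact sub_self _
  · have hmap : Point.map σ (Point.some x y h) = Point.some (σ x) (σ y)
        ((W'.baseChange_nonsingular σ.injective x y).mpr h) := Point.map_some σ h
    rw [hmap]
    by_cases hx : v x ≤ 1
    · have hy : v y ≤ 1 := v_y_le_one v (W'⁄K) ha₁ ha₂ ha₃ ha₄ ha₆ h.1 hx
      have hns : ¬ (v ((W'⁄K).a₁ * y - (3 * x ^ 2 + 2 * (W'⁄K).a₂ * x + (W'⁄K).a₄)) < 1 ∧
          v (2 * y + (W'⁄K).a₁ * x + (W'⁄K).a₃) < 1) := by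
        rintro ⟨h1, h2⟩
        exact hΔ (v_Δ_lt_one_of_singular v (W'⁄K) ha₁ ha₂ h.1 hx h1 h2)
      have hσx : v (x - σ x) < 1 := by rw [Valuation.map_sub_swap]; exact hσ x hx
      have hσy : v (y - σ y) < 1 := by rw [Valuation.map_sub_swap]; exact hσ y hy
      have hσx1 : v (σ x) ≤ 1 := by
        have : σ x = (σ x - x) + x := by ring
        rw [this]; exact vle_add v (le_of_lt (hσ x hx)) hx
      have hB : InG1 v (Point.some x y h - Point.some (σ x) (σ y)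
          ((W'.baseChange_nonsingular σ.injective x y).mpr h)) :=
        sub_eq_zero_or_one_lt_v_px v (W'⁄K) ha₁ ha₂ h
          ((W'.baseChange_nonsingular σ.injective x y).mpr h) hx hσx1 hσx hσy hns
      have := inG1_neg v hB
      rwa [neg_sub] at this
    · rw [not_le] at hx
      have h1 : InG1 v (Point.some x y h : (W'⁄K).Point) := Or.inr hx
      have h2 : InG1 v (Point.some (σ x) (σ y)
          ((W'.baseChange_nonsingular σ.injective x y).mpr h) : (W'⁄K).Point) :=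
        Or.inr (hσ' x hx)
      exact inG1_sub v hb₂ hb₄ hb₆ hb₈ h2 h1

/-- Nodal core without `v n = 1`: given the component analysis, `σ X - X ∈ G₁`. -/
theorem inG1_map_sub_of_nodal (v : Valuation K Γ₀) (W' : Affine R)
    (ha₁ : v (W'⁄K).a₁ ≤ 1) (ha₂ : v (W'⁄K).a₂ ≤ 1) (ha₃ : v (W'⁄K).a₃ ≤ 1)
    (ha₄ : v (W'⁄K).a₄ ≤ 1) (ha₆ : v (W'⁄K).a₆ ≤ 1)
    (s d b : K) (hb₂ : (W'⁄K).b₂ = b - 3 * s)
    (hb₄ : 8 * (W'⁄K).b₄ = 3 * s ^ 2 - 2 * s * b - d ^ 2)
    (hb₆ : 16 * (W'⁄K).b₆ = (s ^ 2 - d ^ 2) * (b - s))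
    (hs : v s ≤ 1) (hd : v d < 1)
    (σ : K →ₐ[S] K) (hσ : ∀ a : K, v a ≤ 1 → v (σ a - a) < 1)
    (hσ' : ∀ a : K, 1 < v a → 1 < v (σ a))
    (X : (W'⁄K).Point)
    (hC : v (4 * px X - s) < 1 → X ≠ 0 →
      ∃ Z : (W'⁄K).Point, Point.map σ Z = Z ∧ (G0' v s (X - Z) ∨ G0' v s (X + Z))) :
    InG1 v (Point.map σ X - X) := by
  have hB' := inG1_map_sub_of_G0' v W' ha₁ ha₂ ha₃ ha₄ ha₆ s d b hb₂ hb₄ hb₆ hs hd σ hσ hσ'
  by_cases hX0 : X = 0
  · left; rw [hX0, _root_.map_zero, sub_zero]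
  by_cases hξ : v (4 * px X - s) < 1
  · obtain ⟨Z, hZ, hw | hw⟩ := hC hξ hX0
    · have := hB' (X - Z) hw
      rwa [map_sub, hZ, sub_sub_sub_cancel_right] at this
    · have := hB' (X + Z) hw
      rwa [map_add, hZ, add_sub_add_right_eq_sub] at this
  · exact hB' X (Or.inr (not_lt.mp hξ))

end GaloisCore

section Assembly

variable {K : Type*} [Field K] [DecidableEq K] [Algebra ℚ K] [IsAlgClosed K] [CharZero K]

/-- (Np)(c), abstract form: under `GoodOrNodal` (no hypothesis on `v n`), an automorphism acting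
trivially modulo the maximal ideal moves every `n`-torsion point inside `G₁`. -/
theorem inG1_map_sub_of_goodOrNodal {Γ₀ : Type*} [LinearOrderedCommGroupWithZero Γ₀]
    (v : Valuation K Γ₀) (E : WeierstrassCurve ℚ)
    (ha₁ : v (E⁄K).a₁ ≤ 1) (ha₂ : v (E⁄K).a₂ ≤ 1) (ha₃ : v (E⁄K).a₃ ≤ 1)
    (ha₄ : v (E⁄K).a₄ ≤ 1) (ha₆ : v (E⁄K).a₆ ≤ 1) (hΔ : (E⁄K).Δ ≠ 0)
    {n : ℕ} (hodd : Odd n) (h2 : v (2 : K) = 1)
    (hE : GoodOrNodal v E n)
    (σ : K →ₐ[ℚ] K) (hσ : ∀ a : K, v a ≤ 1 → v (σ a - a) < 1)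
    (hσ' : ∀ a : K, 1 < v a → 1 < v (σ a))
    (X : (E⁄K).Point) (hX : n • X = 0) : InG1 v (Point.map σ X - X) := by
  rcases hE with hgood | ⟨s, d, b, e, hb₂, hb₄, hb₆, hvb, hvs, hvd, hve, he0⟩
  · exact inG1_map_sub_of_good_reduction v E ha₁ ha₂ ha₃ ha₄ ha₆ hgood σ hσ hσ' X
  · have he0' : algebraMap ℚ K e ≠ 0 := by
      rw [Ne, map_eq_zero]; exact he0
    have hn0 : 0 < n := hodd.pos
    have hvd1 : v (algebraMap ℚ K d) < 1 := by
      rw [hvd]
      exact pow_lt_one₀ zero_le hve hn0.ne'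
    refine inG1_map_sub_of_nodal v E ha₁ ha₂ ha₃ ha₄ ha₆ (algebraMap ℚ K s) (algebraMap ℚ K d)
      (algebraMap ℚ K b) hb₂ hb₄ hb₆ hvs hvd1 σ hσ hσ' X ?_
    intro hξ hX0
    obtain ⟨M, hM0, hMn, hM⟩ := nodal_translate v (E⁄K) (algebraMap ℚ K s) (algebraMap ℚ K d)
      (algebraMap ℚ K b) (algebraMap ℚ K e) n ⟨hb₂, hb₄, hb₆⟩ h2 hvb hvd hve he0' hodd X hX0 hX hξ
    have hfix : ∀ r : ℚ, (σ : K →+* K) (algebraMap ℚ K r) = algebraMap ℚ K r :=
      fun r => σ.commutes r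
    obtain ⟨x, y, h, hx, hσx, hσy⟩ := exists_fixed_point_with_xi v (E⁄K) hΔ
      (algebraMap ℚ K s) (algebraMap ℚ K d) (algebraMap ℚ K b) (algebraMap ℚ K e)
      hb₂ hb₄ hb₆ h2 hvb hvd hve he0' (σ : K →+* K) hσ
      (hfix _) (hfix _) (hfix s) (hfix e) (by rw [← map_pow]; exact hfix _) (hfix b) hM0 hMn
    refine ⟨Point.some x y h, ?_, ?_⟩
    · rw [Point.map_some]
      congr 1
    · exact hM (Point.some x y h) (Point.some_ne_zero h) hx

end Assembly

section Frey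

open ValuationSubring Fermat.Agent.FreyLib

/-- The base change of the Frey curve to a field of characteristic zero has nonzero
discriminant. -/
theorem frey_Δ_ne_zero {K : Type*} [Field K] [Algebra ℚ K] [CharZero K] (P : FreyPackage) :
    (P.freyCurve⁄K).Δ ≠ 0 := by
  change (WeierstrassCurve.baseChange P.freyCurve K).Δ ≠ 0
  rw [frey_baseChange_eq (K := K) P, map_Δ, eq_intCast]
  exact Int.cast_ne_zero.mpr (freyCurveInt_Δ_ne_zero P)

/-- The Frey curve is `GoodOrNodal` at every valuation over an odd prime `q` (`q = p` allowed). -/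
theorem frey_goodOrNodal {K : Type*} [Field K] [DecidableEq K] [Algebra ℚ K] [IsAlgClosed K]
    [CharZero K] {Γ₀ : Type*} [LinearOrderedCommGroupWithZero Γ₀]
    (P : FreyPackage) (v : Valuation K Γ₀) {q : ℕ} (hq : q.Prime) (hq2 : q ≠ 2)
    (hvq : v (q : K) < 1) : GoodOrNodal v P.freyCurve P.p := by
  by_cases hd : (q : ℤ) ∣ P.a * P.b * P.c
  · exact Or.inr (frey_nodal P v hq hq2 hvq hd)
  · exact Or.inl (frey_good P v hq hq2 hvq hd)

/-- (Np)(c), valuation form: at a valuation over an odd prime `q` (possibly `q = p`), an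
automorphism acting trivially modulo the maximal ideal moves every `p`-torsion point of the Frey
curve inside the kernel of reduction. -/
theorem frey_inG1_map_sub {K : Type*} [Field K] [DecidableEq K] [Algebra ℚ K] [IsAlgClosed K]
    [CharZero K] {Γ₀ : Type*} [LinearOrderedCommGroupWithZero Γ₀]
    (P : FreyPackage) (v : Valuation K Γ₀) {q : ℕ} (hq : q.Prime) (hq2 : q ≠ 2)
    (hvq : v (q : K) < 1)
    (σ : K →ₐ[ℚ] K) (hσ : ∀ a : K, v a ≤ 1 → v (σ a - a) < 1)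
    (hσ' : ∀ a : K, 1 < v a → 1 < v (σ a))
    (X : (P.freyCurve⁄K).Point) (hX : P.p • X = 0) : InG1 v (Point.map σ X - X) := by
  obtain ⟨ha₁, ha₂, ha₃, ha₄, ha₆⟩ := frey_coeff_integral (K := K) P v
  exact inG1_map_sub_of_goodOrNodal v P.freyCurve ha₁ ha₂ ha₃ ha₄ ha₆ (frey_Δ_ne_zero P)
    P.hp_odd (v_two_eq_one v hq hvq hq2) (frey_goodOrNodal P v hq hq2 hvq) σ hσ hσ' X hX

/-- Inertia elements act trivially modulo the maximal ideal (valuation form). -/
theorem inertia_v_sub_lt_one {K L : Type*} [Field K] [Field L] [Algebra K L]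
    (A : ValuationSubring L) (σ : L ≃ₐ[K] L) (hσ : σ ∈ A.inertiaSubgroupIn K)
    (a : L) (ha : A.valuation a ≤ 1) : A.valuation (σ a - a) < 1 := by
  have ha' : a ∈ A := (A.valuation_le_one_iff a).mp ha
  exact A.mem_nonunits_iff.mp (inertiaIn_sub_mem_nonunits A σ hσ ha')

/-- Inertia elements preserve the complement of the valuation ring (valuation form). -/
theorem inertia_one_lt_v {K L : Type*} [Field K] [Field L] [Algebra K L]
    (A : ValuationSubring L) (σ : L ≃ₐ[K] L) (hσ : σ ∈ A.inertiaSubgroupIn K)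
    (a : L) (ha : 1 < A.valuation a) : 1 < A.valuation (σ a) := by
  rw [← not_le, A.valuation_le_one_iff] at ha ⊢
  exact fun h => ha ((inertiaIn_apply_mem_iff A σ hσ).mp h)

/-- **(Np)(c)**: for a valuation subring `A` of `ℚ̄` over ANY odd prime `q` (in particular
`q = p`), an element `σ` of the inertia group of `A` moves every `p`-torsion point `X` of the Frey
curve inside the kernel of reduction: `σ X - X ∈ G₁(A)`. -/
theorem frey_map_sub_inG1_of_odd (P : FreyPackage) {q : ℕ} (hq : q.Prime) (hq2 : q ≠ 2)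
    (A : ValuationSubring (AlgebraicClosure ℚ)) (hA : A.LiesOverPrime q)
    (σ : AlgebraicClosure ℚ ≃ₐ[ℚ] AlgebraicClosure ℚ) (hσ : σ ∈ A.inertiaSubgroupIn ℚ)
    (X : (P.freyCurve⁄(AlgebraicClosure ℚ)).Point) (hX : P.p • X = 0) :
    InG1 A.valuation (σ • X - X) := by
  have hvq : A.valuation ((q : ℕ) : AlgebraicClosure ℚ) < 1 := by
    have : ((q : ℕ) : AlgebraicClosure ℚ) ∈ A.nonunits := hA
    exact A.mem_nonunits_iff.mp this
  exact frey_inG1_map_sub P A.valuation hq hq2 hvq σ.toAlgHom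
    (fun a ha => inertia_v_sub_lt_one A σ hσ a ha)
    (fun a ha => inertia_one_lt_v A σ hσ a ha) X hX

/-- **(Np)(c)** at `q = p`. -/
theorem frey_map_sub_inG1 (P : FreyPackage)
    (A : ValuationSubring (AlgebraicClosure ℚ)) (hA : A.LiesOverPrime P.p)
    (σ : AlgebraicClosure ℚ ≃ₐ[ℚ] AlgebraicClosure ℚ) (hσ : σ ∈ A.inertiaSubgroupIn ℚ)
    (X : (P.freyCurve⁄(AlgebraicClosure ℚ)).Point) (hX : P.p • X = 0) :
    InG1 A.valuation (σ • X - X) :=
  frey_map_sub_inG1_of_odd P P.pp (by have := P.hp5; omega) A hA σ hσ X hX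

end Frey

end Fermat.Agent.S13NpC
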