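/-
S13 piece (Np)/(L_p) (helper15): the kernel of reduction inside `E[p]` as a submodule, and the
local dichotomy at `p` for the Frey curve, given `#E[p] = p ^ 2` and one point of `E[p]`
outside the kernel of reduction.
-/
import Mathlib
import Fermat.Prelude.Def_FLTPrelim_FreyPackage
import Fermat.Prelude.Def_FLTPrelim_GaloisRep
import Fermat.Prelude.Def_FLTPrelim_Ramification
import Fermat.Agent.S13.AtPCore
import Fermat.Agent.S13.NpC

set_option autoImplicit false

namespace Fermat.Agent.S13AtP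

open WeierstrassCurve WeierstrassCurve.Affine WeierstrassCurve.Affine.Point

/-- The points of `E[p]` in the kernel of reduction at `A`, as an additive subgroup. -/
noncomputable def kerRedAddSubgroup (P : FreyPackage) (A : ValuationSubring (AlgebraicClosure ℚ)) :
    AddSubgroup (Submodule.torsionBy ℤ (P.freyCurve⁄(AlgebraicClosure ℚ)).Point P.p) where
  carrier := {x | S05H75.InG1 A.valuation (x : (P.freyCurve⁄(AlgebraicClosure ℚ)).Point)}
  zero_mem' := Or.inl rfl
  add_mem' := by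
    intro x y hx hy
    obtain ⟨ha₁, ha₂, ha₃, ha₄, ha₆⟩ :=
      S05H75.frey_coeff_integral (K := AlgebraicClosure ℚ) P A.valuation
    obtain ⟨hb₂, hb₄, hb₆, hb₈⟩ := S05H5.v_b_le_one A.valuation
      (P.freyCurve⁄(AlgebraicClosure ℚ)) ha₁ ha₂ ha₃ ha₄ ha₆
    exact S05H75.inG1_add A.valuation hb₂ hb₄ hb₆ hb₈ hx hy
  neg_mem' := by
    intro x hx
    exact S05H75.inG1_neg A.valuation hx

/-- The points of `E[p]` in the kernel of reduction at `A`, as a `ZMod p`-submodule. -/
noncomputable def kerRed (P : FreyPackage) (A : ValuationSubring (AlgebraicClosure ℚ)) :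
    Submodule (ZMod P.p) (Submodule.torsionBy ℤ (P.freyCurve⁄(AlgebraicClosure ℚ)).Point P.p) :=
  AddSubgroup.toZModSubmodule P.p (kerRedAddSubgroup P A)

theorem mem_kerRed (P : FreyPackage) (A : ValuationSubring (AlgebraicClosure ℚ))
    (x : Submodule.torsionBy ℤ (P.freyCurve⁄(AlgebraicClosure ℚ)).Point P.p) :
    x ∈ kerRed P A ↔ S05H75.InG1 A.valuation (x : (P.freyCurve⁄(AlgebraicClosure ℚ)).Point) :=
  Iff.rfl

/-- The local dichotomy at `p`, from the cardinality of `E[p]` and the existence of a point of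
`E[p]` outside the kernel of reduction. -/
theorem frey_inertia_p_dichotomy_of (P : FreyPackage)
    (hcard : Nat.card (Submodule.torsionBy ℤ (P.freyCurve⁄(AlgebraicClosure ℚ)).Point P.p)
      = P.p ^ 2)
    (N : Submodule (ZMod P.p) (Submodule.torsionBy ℤ (P.freyCurve⁄(AlgebraicClosure ℚ)).Point P.p))
    (hN : IsGaloisStable ℚ N) (hbot : N ≠ ⊥) (htop : N ≠ ⊤)
    (A : ValuationSubring (AlgebraicClosure ℚ)) (hA : A.LiesOverPrime P.p)
    (hb : ∃ x : Submodule.torsionBy ℤ (P.freyCurve⁄(AlgebraicClosure ℚ)).Point P.p,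
      ¬ S05H75.InG1 A.valuation (x : (P.freyCurve⁄(AlgebraicClosure ℚ)).Point)) :
    (∀ σ ∈ A.inertiaSubgroupIn ℚ,
      ∀ x : Submodule.torsionBy ℤ (P.freyCurve⁄(AlgebraicClosure ℚ)).Point P.p, σ • x - x ∈ N) ∨
    (∀ σ ∈ A.inertiaSubgroupIn ℚ, ∀ x ∈ N, σ • x = x) := by
  have : Fact P.p.Prime := ⟨P.pp⟩
  have hL : kerRed P A ≠ ⊤ := by
    obtain ⟨x, hx⟩ := hb
    intro h
    exact hx ((mem_kerRed P A x).mp (h ▸ Submodule.mem_top))
  refine dichotomy (p := P.p) (A.inertiaSubgroupIn ℚ : Set _) hcard N (kerRed P A) hbot htop hL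
    (fun σ _ x hx => hN σ x hx) ?_
  intro σ hσ x
  rw [mem_kerRed]
  have hX : P.p • (x : (P.freyCurve⁄(AlgebraicClosure ℚ)).Point) = 0 := by
    have h1 : ((P.p : ℕ) : ℤ) • (x : (P.freyCurve⁄(AlgebraicClosure ℚ)).Point) = 0 :=
      (Submodule.mem_torsionBy_iff _ _).mp x.2
    rwa [natCast_zsmul] at h1
  exact Fermat.Agent.S13NpC.frey_map_sub_inG1 P A hA σ hσ x.1 hX

end Fermat.Agent.S13AtP
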