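import Mathlib
import Fermat.Prelude.Def_FLTPrelim_Ramification

/-!
# S13, piece (Np)(b): Eisenstein at `p` and transitivity of Galois on the roots

Let `A` be a valuation subring of `Qb = AlgebraicClosure ℚ` lying over the prime `p`, and let
`Ψ ∈ ℤ[X]` have leading coefficient `p` and positive degree.  If no root of `Ψ` in `Qb` lies in
`A`, then `Ψ.reverse` is Eisenstein at `p`, hence irreducible, and `Gal(Qb/ℚ)` acts transitively on
the roots of `Ψ`.
-/

namespace Fermat.Agent.S13Np

open Polynomial

local notation "Qb" => AlgebraicClosure ℚ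

/-- `A.nonunits` absorbs multiplication by elements of `A`. -/
theorem mul_mem_nonunits (A : ValuationSubring Qb) {x y : Qb} (hx : x ∈ A)
    (hy : y ∈ A.nonunits) : x * y ∈ A.nonunits := by
  rw [ValuationSubring.mem_nonunits_iff] at hy ⊢
  rw [map_mul]
  have hx' : A.valuation x ≤ 1 := (A.valuation_le_one_iff x).mpr hx
  calc A.valuation x * A.valuation y ≤ 1 * A.valuation y := by gcongr
    _ = A.valuation y := one_mul _
    _ < 1 := hy

theorem one_notMem_nonunits (A : ValuationSubring Qb) : (1 : Qb) ∉ A.nonunits := by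
  rw [ValuationSubring.mem_nonunits_iff, map_one]
  exact lt_irrefl _

theorem intCast_mem_valuationSubring (A : ValuationSubring Qb) (n : ℤ) : (n : Qb) ∈ A :=
  intCast_mem A n

/-- For an integer `n`: `n ∈ 𝔪_A ↔ p ∣ n`. -/
theorem intCast_mem_nonunits_iff {p : ℕ} (hp : p.Prime) (A : ValuationSubring Qb)
    (hA : A.LiesOverPrime p) (n : ℤ) : ((n : Qb) ∈ A.nonunits) ↔ (p : ℤ) ∣ n := by
  have hA' : ((p : ℤ) : Qb) ∈ A.nonunits := by
    have : ((p : ℤ) : Qb) = (p : Qb) := by push_cast; rfl
    rw [this]; exact hA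
  constructor
  · intro hn
    by_contra hpn
    have hcop : IsCoprime (p : ℤ) n :=
      (Prime.coprime_iff_not_dvd (Nat.prime_iff_prime_int.mp hp)).mpr hpn
    obtain ⟨a, b, hab⟩ := hcop
    have h1 : ((a * p + b * n : ℤ) : Qb) ∈ A.nonunits := by
      push_cast
      exact A.nonunits.add_mem (mul_mem_nonunits A (intCast_mem_valuationSubring A a) hA')
        (mul_mem_nonunits A (intCast_mem_valuationSubring A b) hn)
    rw [hab] at h1
    exact one_notMem_nonunits A (by simpa using h1)
  · rintro ⟨k, rfl⟩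
    push_cast
    rw [mul_comm]
    have := mul_mem_nonunits A (intCast_mem_valuationSubring A k) hA'
    simpa using this

/-- A product of factors `X - C s` with all `s ∈ 𝔪_A` has all coefficients in `A` and all
coefficients below the degree in `𝔪_A`. -/
theorem coeff_prod_X_sub_C_mem (A : ValuationSubring Qb) (S : Multiset Qb)
    (hS : ∀ s ∈ S, s ∈ A.nonunits) :
    (∀ k, ((S.map fun s => (X : Qb[X]) - C s).prod).coeff k ∈ A) ∧
      ∀ k, k < Multiset.card S → ((S.map fun s => (X : Qb[X]) - C s).prod).coeff k ∈ A.nonunits := by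
  induction S using Multiset.induction_on with
  | empty =>
    refine ⟨fun k => ?_, fun k hk => by simp at hk⟩
    simp only [Multiset.map_zero, Multiset.prod_zero, coeff_one]
    split_ifs
    · exact A.one_mem
    · exact A.zero_mem
  | cons s S ih =>
    have hs : s ∈ A.nonunits := hS s (Multiset.mem_cons_self s S)
    have hsA : s ∈ A := ValuationSubring.nonunits_subset hs
    obtain ⟨ih1, ih2⟩ := ih fun t ht => hS t (Multiset.mem_cons_of_mem ht)
    set q := (S.map fun s => (X : Qb[X]) - C s).prod with hq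
    have hmonic : q.Monic := by
      rw [hq]; exact monic_multiset_prod_of_monic _ _ fun t _ => monic_X_sub_C t
    have hdeg : q.natDegree = Multiset.card S := by
      rw [hq, natDegree_multiset_prod_of_monic _ fun f hf => by
        obtain ⟨t, -, rfl⟩ := Multiset.mem_map.mp hf; exact monic_X_sub_C t]
      simp
    have hprod : ((s ::ₘ S).map fun s => (X : Qb[X]) - C s).prod = (X - C s) * q := by
      simp [hq]
    rw [hprod]
    have hcoeff : ∀ k, ((X - C s) * q).coeff k
        = (if k = 0 then 0 else q.coeff (k - 1)) - s * q.coeff k := by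
      intro k
      rw [sub_mul, coeff_sub, coeff_C_mul]
      congr 1
      rcases k with _ | k
      · simp
      · simp [coeff_X_mul]
    constructor
    · intro k
      rw [hcoeff]
      apply sub_mem
      · split_ifs
        · exact A.zero_mem
        · exact ih1 _
      · exact mul_mem hsA (ih1 k)
    · intro k hk
      rw [Multiset.card_cons] at hk
      rw [hcoeff]
      apply sub_mem
      · split_ifs with h0
        · exact zero_mem _
        · apply ih2
          omega
      · rw [mul_comm]
        exact mul_mem_nonunits A (ih1 k) hs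

/-- If `s⁻¹ ∉ A` then `s ∈ 𝔪_A`. -/
theorem mem_nonunits_of_inv_notMem (A : ValuationSubring Qb) {s : Qb} (h : s⁻¹ ∉ A) :
    s ∈ A.nonunits := by
  rw [ValuationSubring.mem_nonunits_iff]
  rw [← ValuationSubring.valuation_le_one_iff, map_inv₀, not_le] at h
  exact (one_lt_inv_iff₀.mp h).2

/-- Over a field: if `f(0) ≠ 0` and the reversed polynomial is irreducible, so is `f`. -/
theorem irreducible_of_irreducible_reverse {K : Type*} [Field K] {f : K[X]}
    (h0 : f.coeff 0 ≠ 0) (h : Irreducible f.reverse) : Irreducible f := by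
  have key : ∀ a b : K[X], f = a * b → IsUnit a.reverse → IsUnit a := by
    intro a b hab hu
    have ha0 : a.coeff 0 ≠ 0 := by
      intro ha
      apply h0
      rw [hab, mul_coeff_zero, ha, zero_mul]
    have hd : a.reverse.natDegree = 0 := natDegree_eq_zero_of_isUnit hu
    rw [reverse_natDegree, natTrailingDegree_eq_zero.mpr (Or.inr ha0), Nat.sub_zero] at hd
    rw [eq_C_of_natDegree_eq_zero hd]
    exact isUnit_C.mpr (IsUnit.mk0 _ ha0)
  refine ⟨?_, ?_⟩
  · intro hu
    apply h.not_isUnit
    have hd : f.natDegree = 0 := natDegree_eq_zero_of_isUnit hu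
    rw [eq_C_of_natDegree_eq_zero hd, reverse_C]
    exact isUnit_C.mpr (IsUnit.mk0 _ h0)
  · intro a b hab
    have hrev : f.reverse = a.reverse * b.reverse := by rw [hab, reverse_mul_of_domain]
    rcases h.isUnit_or_isUnit hrev with hu | hu
    · exact Or.inl (key a b hab hu)
    · exact Or.inr (key b a (by rw [hab, mul_comm]) hu)

section Main

variable {p : ℕ} (hp : p.Prime) (A : ValuationSubring Qb) (hA : A.LiesOverPrime p)
  (Ψ : ℤ[X]) (hdeg : 0 < Ψ.natDegree) (hlead : Ψ.leadingCoeff = p)
  (hroots : ∀ r : Qb, aeval r Ψ = 0 → r ∉ A)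

include hroots in
theorem coeff_zero_ne_zero_of_roots : Ψ.coeff 0 ≠ 0 := by
  intro h0
  apply hroots 0 _ A.zero_mem
  rw [← coeff_zero_eq_aeval_zero', h0, map_zero]

include hroots in
theorem reverse_natDegree_of_roots : Ψ.reverse.natDegree = Ψ.natDegree := by
  rw [reverse_natDegree,
    natTrailingDegree_eq_zero.mpr (Or.inr (coeff_zero_ne_zero_of_roots A Ψ hroots)), Nat.sub_zero]

include hroots in
theorem reverse_leadingCoeff_of_roots : Ψ.reverse.leadingCoeff = Ψ.coeff 0 := by
  rw [reverse_leadingCoeff, trailingCoeff,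
    natTrailingDegree_eq_zero.mpr (Or.inr (coeff_zero_ne_zero_of_roots A Ψ hroots))]

include hp hlead hroots in
/-- Every root of `Ψ.reverse` lies in `𝔪_A`. -/
theorem reverse_root_mem_nonunits (s : Qb) (hs : aeval s Ψ.reverse = 0) : s ∈ A.nonunits := by
  have hs0 : s ≠ 0 := by
    rintro rfl
    rw [← coeff_zero_eq_aeval_zero', coeff_zero_reverse, hlead] at hs
    have hp0 : (p : Qb) = 0 := by simpa using hs
    exact hp.ne_zero (by exact_mod_cast hp0)
  apply mem_nonunits_of_inv_notMem
  apply hroots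
  let _ : Invertible s⁻¹ := invertibleOfNonzero (inv_ne_zero hs0)
  have h1 : ⅟(s⁻¹) = s := by rw [invOf_eq_inv, inv_inv]
  have := (eval₂_reverse_eq_zero_iff (algebraMap ℤ Qb) s⁻¹ Ψ).mp (by rw [h1]; exact hs)
  exact this

include hp hlead hroots in
/-- The key factorisation facts: for `k < deg`, `Ψ.reverse.coeff k ∈ 𝔪_A`, and
`p = Ψ(0) * u` with `u ∈ 𝔪_A`. -/
theorem reverse_coeff_mem_nonunits (k : ℕ) (hk : k < Ψ.natDegree) :
    ∃ u ∈ A.nonunits, ((Ψ.reverse.coeff k : ℤ) : Qb) = ((Ψ.coeff 0 : ℤ) : Qb) * u := by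
  set R := Ψ.reverse with hR
  set f : Qb[X] := R.map (algebraMap ℤ Qb) with hf
  have hinj : Function.Injective (algebraMap ℤ Qb) := (algebraMap ℤ Qb).injective_int
  have hsplit : f.Splits := IsAlgClosed.splits f
  have heq := hsplit.eq_prod_roots
  have hcard : Multiset.card f.roots = Ψ.natDegree := by
    rw [← hsplit.natDegree_eq_card_roots, hf, natDegree_map_eq_of_injective hinj, hR,
      reverse_natDegree_of_roots A Ψ hroots]
  have hS : ∀ s ∈ f.roots, s ∈ A.nonunits := by
    intro s hs
    apply reverse_root_mem_nonunits hp A Ψ hlead hroots s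
    have := (mem_roots'.mp hs).2
    rw [IsRoot, hf, eval_map] at this
    rw [aeval_def]; exact this
  obtain ⟨-, h2⟩ := coeff_prod_X_sub_C_mem A f.roots hS
  refine ⟨_, h2 k (by rw [hcard]; exact hk), ?_⟩
  have hlc : f.leadingCoeff = ((Ψ.coeff 0 : ℤ) : Qb) := by
    rw [hf, leadingCoeff_map_of_injective hinj, hR, reverse_leadingCoeff_of_roots A Ψ hroots]
    simp
  have hck : f.coeff k = ((R.coeff k : ℤ) : Qb) := by
    rw [hf, coeff_map]; simp
  rw [← hck, ← hlc]
  conv_lhs => rw [heq]
  rw [coeff_C_mul]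

include hp hlead hroots hdeg in
theorem not_dvd_coeff_zero : ¬ (p : ℤ) ∣ Ψ.coeff 0 := by
  rintro ⟨c, hc⟩
  obtain ⟨u, hu, hu'⟩ := reverse_coeff_mem_nonunits hp A Ψ hlead hroots 0 hdeg
  rw [coeff_zero_reverse, hlead, hc] at hu'
  push_cast at hu'
  have hp0 : (p : Qb) ≠ 0 := by exact_mod_cast hp.ne_zero
  have h1 : (1 : Qb) = (c : Qb) * u := by
    apply mul_left_cancel₀ hp0
    rw [mul_one, ← mul_assoc]
    exact hu'
  apply one_notMem_nonunits A
  rw [h1]
  exact mul_mem_nonunits A (intCast_mem_valuationSubring A c) hu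

include hp hA hlead hroots in
theorem dvd_reverse_coeff (k : ℕ) (hk : k < Ψ.natDegree) : (p : ℤ) ∣ Ψ.reverse.coeff k := by
  obtain ⟨u, hu, hu'⟩ := reverse_coeff_mem_nonunits hp A Ψ hlead hroots k hk
  rw [← intCast_mem_nonunits_iff hp A hA, hu']
  exact mul_mem_nonunits A (intCast_mem_valuationSubring A _) hu

include hp hA hlead hroots hdeg in
/-- `Ψ.reverse` is Eisenstein at `p`. -/
theorem reverse_isEisensteinAt : Ψ.reverse.IsEisensteinAt (Ideal.span {(p : ℤ)}) where
  leading := by
    rw [Ideal.mem_span_singleton, reverse_leadingCoeff_of_roots A Ψ hroots]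
    exact not_dvd_coeff_zero hp A Ψ hdeg hlead hroots
  mem := fun {n} hn => by
    rw [Ideal.mem_span_singleton]
    rw [reverse_natDegree_of_roots A Ψ hroots] at hn
    exact dvd_reverse_coeff hp A hA Ψ hlead hroots n hn
  notMem := by
    rw [Ideal.span_singleton_pow, Ideal.mem_span_singleton, coeff_zero_reverse, hlead]
    intro h
    have h' : p ^ 2 ∣ p := by exact_mod_cast h
    have := Nat.le_of_dvd hp.pos h'
    nlinarith [hp.two_le]

include hp hlead hroots hdeg in
theorem reverse_isPrimitive : Ψ.reverse.IsPrimitive := by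
  intro r hr
  rw [C_dvd_iff_dvd_coeff] at hr
  have h0 := hr 0
  rw [coeff_zero_reverse, hlead] at h0
  have hd := hr Ψ.reverse.natDegree
  rw [coeff_natDegree, reverse_leadingCoeff_of_roots A Ψ hroots] at hd
  obtain ⟨t, ht⟩ := h0
  have hirr : Irreducible (p : ℤ) := (Nat.prime_iff_prime_int.mp hp).irreducible
  rcases hirr.isUnit_or_isUnit ht with h | h
  · exact h
  · exfalso
    apply not_dvd_coeff_zero hp A Ψ hdeg hlead hroots
    refine dvd_trans ?_ hd
    have : (p : ℤ) ∣ r * t := ht ▸ dvd_rfl
    exact (h.dvd_mul_right).mp this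

include hp hA hlead hroots hdeg in
/-- `Ψ.reverse` is irreducible in `ℤ[X]`. -/
theorem reverse_irreducible : Irreducible Ψ.reverse := by
  have hprime : (Ideal.span {(p : ℤ)}).IsPrime :=
    (Ideal.span_singleton_prime (by exact_mod_cast hp.ne_zero)).mpr (Nat.prime_iff_prime_int.mp hp)
  refine (reverse_isEisensteinAt hp A hA Ψ hdeg hlead hroots).irreducible hprime
    (reverse_isPrimitive hp A Ψ hdeg hlead hroots) ?_
  rw [reverse_natDegree_of_roots A Ψ hroots]
  exact hdeg

include hp hA hlead hroots hdeg in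
/-- `Ψ.reverse` is irreducible in `ℚ[X]`. -/
theorem reverse_irreducible_map : Irreducible (Ψ.reverse.map (Int.castRingHom ℚ)) :=
  (IsPrimitive.Int.irreducible_iff_irreducible_map_cast
    (reverse_isPrimitive hp A Ψ hdeg hlead hroots)).mp
    (reverse_irreducible hp A hA Ψ hdeg hlead hroots)

include hp hA hlead hroots hdeg in
/-- **Eisenstein at `p`**: if `Ψ ∈ ℤ[X]` has leading coefficient `p` and no root of `Ψ` lies in a
valuation ring `A` over `p`, then `Ψ` is irreducible over `ℚ`. -/
theorem irreducible_of_roots_not_mem : Irreducible (Ψ.map (Int.castRingHom ℚ)) := by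
  have hinj : Function.Injective (Int.castRingHom ℚ) := (Int.castRingHom ℚ).injective_int
  apply irreducible_of_irreducible_reverse
  · rw [coeff_map]
    have := coeff_zero_ne_zero_of_roots A Ψ hroots
    simpa using this
  · have : (Ψ.map (Int.castRingHom ℚ)).reverse = Ψ.reverse.map (Int.castRingHom ℚ) := by
      rw [reverse, reverse, natDegree_map_eq_of_injective hinj, reflect_map]
    rw [this]
    exact reverse_irreducible_map hp A hA Ψ hdeg hlead hroots

include hp hA hlead hroots hdeg in
/-- **Transitivity**: under the same hypotheses, `Gal(Qb/ℚ)` acts transitively on the roots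
of `Ψ`. -/
theorem exists_galois_of_roots_not_mem (r r' : Qb) (hr : aeval r Ψ = 0) (hr' : aeval r' Ψ = 0) :
    ∃ σ : Qb ≃ₐ[ℚ] Qb, σ r = r' := by
  have hirr := irreducible_of_roots_not_mem hp A hA Ψ hdeg hlead hroots
  have hmap : ∀ x : Qb, aeval x Ψ = 0 → aeval x (Ψ.map (Int.castRingHom ℚ)) = 0 := by
    intro x hx
    rw [← algebraMap_int_eq, aeval_map_algebraMap]
    exact hx
  have hmin : ∀ x : Qb, aeval x Ψ = 0 →
      (Ψ.map (Int.castRingHom ℚ)) * C (Ψ.map (Int.castRingHom ℚ)).leadingCoeff⁻¹ = minpoly ℚ x :=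
    fun x hx => minpoly.eq_of_irreducible hirr (hmap x hx)
  have hAlg : Algebra.IsAlgebraic ℚ Qb := AlgebraicClosure.isAlgebraic ℚ
  have hCl : IsAlgClosure ℚ Qb := ⟨inferInstance, inferInstance⟩
  have hN : Normal ℚ Qb := IsAlgClosure.normal ℚ Qb
  have halg : IsAlgebraic ℚ r' := Algebra.IsAlgebraic.isAlgebraic r'
  refine minpoly.exists_algEquiv_of_root halg ?_
  rw [← hmin r' hr', map_mul, hmap r hr, zero_mul]

end Main

end Fermat.Agent.S13Np
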