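import Fermat.Agent.S13.RCore
import Fermat.Agent.Lib.Frey.Basic
import Fermat.Agent.S05.H75.FreyData
import Fermat.Prelude.Def_FLTPrelim_GaloisRep

/-!
# S13, piece (R): the Frey curve has no nonzero Galois-fixed point of order `p`

A Galois-fixed point of `E[p](ℚ̄)` has rational coordinates, hence comes from `E(ℚ)`; and
`E(ℚ)[p] = 0` by the `2`-adic analysis of `RCore.lean` (`v₂(a₄) = p v₂(b) - 4` is prime to `p`).
-/

set_option autoImplicit false

namespace Fermat.Agent.S13R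

open WeierstrassCurve WeierstrassCurve.Affine WeierstrassCurve.Affine.Point
open S05H65 S05H65.AVal S13H65 Fermat.Agent.FreyLib

/-- The rational Frey curve is the image of the integral one. -/
theorem freyQ_eq (P : FreyPackage) :
    (P.freyCurve⁄ℚ) = P.freyCurveInt.map (Int.castRingHom ℚ) :=
  S05H75.frey_baseChange_eq (K := ℚ) P

theorem freyQ_centred (P : FreyPackage) : Centred (P.freyCurve⁄ℚ) := by
  rw [freyQ_eq]
  exact ⟨by rw [map_a₃, freyCurveInt_a₃, _root_.map_zero],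
    by rw [map_a₆, freyCurveInt_a₆, _root_.map_zero]⟩

theorem freyQ_two_dvd_a₄ (P : FreyPackage) : (2 : ℤ) ∣ P.freyCurveInt.a₄ := by
  have h16 := sixteen_mul_a₄ P
  obtain ⟨k, hk⟩ := thirtytwo_dvd_b_pow P
  refine ⟨-(P.a ^ P.p) * k, ?_⟩
  have : 16 * P.freyCurveInt.a₄ = 16 * (2 * (-(P.a ^ P.p) * k)) := by
    rw [h16, hk]; ring
  exact mul_left_cancel₀ (by norm_num) this

theorem freyQ_a₄_ne_zero (P : FreyPackage) : P.freyCurveInt.a₄ ≠ 0 := by
  intro h0
  have h16 := sixteen_mul_a₄ P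
  rw [h0, mul_zero] at h16
  have h1 : P.a ^ P.p * P.b ^ P.p = 0 := by linarith
  rcases mul_eq_zero.mp h1 with h | h
  · exact P.ha0 (pow_eq_zero_iff P.hp0 |>.mp h)
  · exact P.hb0 (pow_eq_zero_iff P.hp0 |>.mp h)

theorem freyQ_b₂_odd (P : FreyPackage) : ¬ (2 : ℤ) ∣ P.freyCurveInt.b₂ := by
  rw [freyCurveInt_b₂]
  have h1 := a_pow_emod_four P
  have h2 := thirtytwo_dvd_b_pow P
  omega

/-- The `2`-adic shape of the Frey curve: `v₂(a₄) = p v₂(b) - 4 > 0`, `b₂` a unit. -/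
theorem freyQ_core2 (P : FreyPackage) :
    ∃ h k : ℤ, 4 + h = P.p * k ∧
      Core2 twoVal (P.freyCurve⁄ℚ).a₄ (P.freyCurve⁄ℚ).b₂ h := by
  have ha₄ : (P.freyCurve⁄ℚ).a₄ = ((P.freyCurveInt.a₄ : ℤ) : ℚ) := by
    rw [freyQ_eq, map_a₄, eq_intCast]
  have hb₂ : (P.freyCurve⁄ℚ).b₂ = ((P.freyCurveInt.b₂ : ℤ) : ℚ) := by
    rw [freyQ_eq, map_b₂, eq_intCast]
  have ha₄0 : ((P.freyCurveInt.a₄ : ℤ) : ℚ) ≠ 0 := by exact_mod_cast freyQ_a₄_ne_zero P
  have hb0 : (P.b : ℚ) ≠ 0 := by exact_mod_cast P.hb0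
  refine ⟨twoVal.w ((P.freyCurveInt.a₄ : ℤ) : ℚ), twoVal.w (P.b : ℚ), ?_, ?_⟩
  · have h16 : (16 : ℚ) * ((P.freyCurveInt.a₄ : ℤ) : ℚ)
        = -((P.a : ℚ) ^ P.p * (P.b : ℚ) ^ P.p) := by
      have := congrArg (Int.cast : ℤ → ℚ) (sixteen_mul_a₄ P)
      push_cast at this
      linarith
    have w16 : twoVal.Ex (16 : ℚ) 4 := by
      have := twoVal_ex_two.pow 4
      norm_num at this
      exact this
    have wa : twoVal.Ex (P.a : ℚ) 0 := twoVal_ex_of_odd (a_odd P)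
    have wb : twoVal.Ex (P.b : ℚ) (twoVal.w (P.b : ℚ)) := ex_of_ne hb0
    have e1 := w16.mul (ex_of_ne ha₄0)
    have e2 := ((wa.pow P.p).mul (wb.pow P.p)).neg
    rw [h16] at e1
    have := e1.unique e2
    rw [this, smul_zero, zero_add, nsmul_eq_mul]
  · refine ⟨twoVal_ex_two.ge' (by norm_num), ?_, ?_, ?_⟩
    · rw [hb₂]; exact twoVal_ex_of_odd (freyQ_b₂_odd P)
    · rw [ha₄]; exact ex_of_ne ha₄0
    · exact (twoVal_gt_of_even (freyQ_two_dvd_a₄ P)).lt_of_ne ha₄0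

/-- The Frey curve has no rational point of order `p`. -/
theorem freyQ_no_torsion (P : FreyPackage) (X : (P.freyCurve⁄ℚ).Point) (hX : P.p • X = 0) :
    X = 0 := by
  obtain ⟨h, k, hk, C⟩ := freyQ_core2 P
  exact no_torsion_of_core2 (freyQ_centred P) C P.pp P.hp5 hk X hX

/-- An element of `ℚ̄` fixed by the whole Galois group is rational. -/
theorem exists_rat_of_fixed (x : AlgebraicClosure ℚ)
    (hx : ∀ σ : AlgebraicClosure ℚ ≃ₐ[ℚ] AlgebraicClosure ℚ, σ x = x) :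
    ∃ r : ℚ, algebraMap ℚ (AlgebraicClosure ℚ) r = x := by
  have h1 : Algebra.IsAlgebraic ℚ (AlgebraicClosure ℚ) := AlgebraicClosure.isAlgebraic ℚ
  have h2 : IsAlgClosure ℚ (AlgebraicClosure ℚ) := ⟨inferInstance, h1⟩
  have h3 : IsGalois ℚ (AlgebraicClosure ℚ) := IsAlgClosure.isGalois ℚ (AlgebraicClosure ℚ)
  exact (InfiniteGalois.mem_range_algebraMap_iff_fixed (k := ℚ) (K := AlgebraicClosure ℚ) x).mpr hx

/-- (R): a Galois-fixed point of `E[p]` on the Frey curve is zero. -/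
theorem frey_no_rational_torsion (P : FreyPackage)
    (x : Submodule.torsionBy ℤ (P.freyCurve⁄(AlgebraicClosure ℚ)).Point P.p)
    (hx : ∀ σ : AlgebraicClosure ℚ ≃ₐ[ℚ] AlgebraicClosure ℚ, σ • x = x) : x = 0 := by
  have hpX : (P.p : ℤ) • (x : (P.freyCurve⁄(AlgebraicClosure ℚ)).Point) = 0 :=
    (Submodule.mem_torsionBy_iff _ _).mp x.2
  have hfix : ∀ σ : AlgebraicClosure ℚ ≃ₐ[ℚ] AlgebraicClosure ℚ,
      Point.map (W' := P.freyCurve) σ.toAlgHom (x : (P.freyCurve⁄(AlgebraicClosure ℚ)).Point)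
        = (x : (P.freyCurve⁄(AlgebraicClosure ℚ)).Point) :=
    fun σ => congrArg Subtype.val (hx σ)
  rcases hX : (x : (P.freyCurve⁄(AlgebraicClosure ℚ)).Point) with _ | ⟨x₀, y₀, hns⟩
  · exact Subtype.ext hX
  · exfalso
    rw [hX] at hfix hpX
    have hx₀ : ∀ σ : AlgebraicClosure ℚ ≃ₐ[ℚ] AlgebraicClosure ℚ, σ x₀ = x₀ := fun σ => by
      have := hfix σ
      rw [Point.map_some] at this
      exact (Point.some.inj this).1
    have hy₀ : ∀ σ : AlgebraicClosure ℚ ≃ₐ[ℚ] AlgebraicClosure ℚ, σ y₀ = y₀ := fun σ => by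
      have := hfix σ
      rw [Point.map_some] at this
      exact (Point.some.inj this).2
    obtain ⟨r, hr⟩ := exists_rat_of_fixed x₀ hx₀
    obtain ⟨s, hs⟩ := exists_rat_of_fixed y₀ hy₀
    have hns' : (P.freyCurve⁄ℚ).Nonsingular r s := by
      refine (WeierstrassCurve.Affine.baseChange_nonsingular P.freyCurve
        (f := Algebra.ofId ℚ (AlgebraicClosure ℚ)) (Algebra.ofId ℚ (AlgebraicClosure ℚ)).injective
        r s).mp ?_
      have e1 : (Algebra.ofId ℚ (AlgebraicClosure ℚ)) r = x₀ := hr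
      have e2 : (Algebra.ofId ℚ (AlgebraicClosure ℚ)) s = y₀ := hs
      rw [e1, e2]
      exact hns
    have hmap : Point.map (W' := P.freyCurve) (Algebra.ofId ℚ (AlgebraicClosure ℚ))
        (Point.some r s hns') = Point.some x₀ y₀ hns := by
      rw [Point.map_some]
      have e1 : (Algebra.ofId ℚ (AlgebraicClosure ℚ)) r = x₀ := hr
      have e2 : (Algebra.ofId ℚ (AlgebraicClosure ℚ)) s = y₀ := hs
      simp only [e1, e2]
    have hpQ : P.p • (Point.some r s hns' : (P.freyCurve⁄ℚ).Point) = 0 := by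
      apply Point.map_injective (W' := P.freyCurve) (Algebra.ofId ℚ (AlgebraicClosure ℚ))
      rw [map_nsmul, hmap, _root_.map_zero, ← natCast_zsmul]
      exact hpX
    exact Point.some_ne_zero _ (freyQ_no_torsion P _ hpQ)

end Fermat.Agent.S13R
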