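import Fermat.Agent.S13.RTwoVal

/-!
# S13, piece (R), part 2: no rational point of order `p` (abstract form over `ℚ`)
-/

set_option autoImplicit false

namespace Fermat.Agent.S13R

open WeierstrassCurve S05H65 S05H65.AVal S13H65 S05H75

/-- The arithmetic at the heart of (R): `gcd (p, 2 (p k - 4)) = 1`. -/
lemma rho_eq_zero_of_arith {p : ℕ} (hp : p.Prime) (hp5 : 5 ≤ p) {h k ρ m : ℤ}
    (hk : 4 + h = p * k) (hh : 0 < h) (h0 : 0 ≤ ρ) (hle : ρ ≤ h)
    (hm : p • ρ = m • (h + h)) : ρ = 0 := by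
  rw [nsmul_eq_mul, smul_eq_mul] at hm
  have hdvd : (p : ℤ) ∣ 8 * m := by
    refine ⟨2 * k * m - ρ, ?_⟩
    have e : h = p * k - 4 := by linarith
    rw [e] at hm
    linear_combination hm
  have hp' : Prime (p : ℤ) := Nat.prime_iff_prime_int.mp hp
  have hpm : (p : ℤ) ∣ m := by
    rcases hp'.dvd_or_dvd hdvd with h8 | hm'
    · exfalso
      have h8' : p ∣ 8 := by exact_mod_cast h8
      have hle8 : p ≤ 8 := Nat.le_of_dvd (by norm_num) h8'
      interval_cases p <;> first | omega | (norm_num at hp)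
    · exact hm'
  obtain ⟨m', rfl⟩ := hpm
  have hp0 : (p : ℤ) ≠ 0 := by exact_mod_cast hp.ne_zero
  have hρ : ρ = m' * (h + h) := by
    apply mul_left_cancel₀ hp0
    rw [hm]; ring
  rcases lt_trichotomy m' 0 with hneg | hzero | hpos
  · exfalso
    have : m' * (h + h) < 0 := mul_neg_of_neg_of_pos hneg (by linarith)
    linarith
  · rw [hρ, hzero, zero_mul]
  · exfalso
    have h1 : 1 ≤ m' := hpos
    have : 1 * (h + h) ≤ m' * (h + h) := mul_le_mul_of_nonneg_right h1 (by linarith)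
    linarith

variable {W : WeierstrassCurve.Affine ℚ}

/-- No rational point of order `p` on a Weierstrass curve over `ℚ` with `a₃ = a₆ = 0`,
`b₂` a `2`-adic unit and `v₂(a₄) = p k - 4 > 0`. -/
theorem no_torsion_of_core2 (N : Centred W) {h : ℤ} (C : Core2 twoVal W.a₄ W.b₂ h)
    {p : ℕ} (hp : p.Prime) (hp5 : 5 ≤ p) {k : ℤ} (hk : 4 + h = p * k)
    (X : W.Point) (hX : p • X = 0) : X = 0 := by
  classical
  by_contra hX0
  have hh := C.hh
  -- the component function vanishes on `p`-torsion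
  have hρ : ∀ Y : W.Point, p • Y = 0 → rho2 twoVal h Y = 0 := fun Y hY => by
    obtain ⟨m, hm⟩ := rho2_torsion N C Y p hY
    exact rho_eq_zero_of_arith hp hp5 hk hh (rho2_nonneg hh Y) (rho2_le hh Y) hm
  -- integrality of the `b`-invariants
  have ha₄ : twoVal.Ge W.a₄ 0 := C.ha₄.ge' hh.le
  have h2 : twoVal.Ge (2 : ℚ) 0 := C.h2
  have hb₂ : Rat.padicValuation 2 W.b₂ ≤ 1 := padicValuation_le_one_iff.mpr C.hb₂.ge
  have hb₄ : Rat.padicValuation 2 W.b₄ ≤ 1 := by
    rw [N.b₄]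
    refine padicValuation_le_one_iff.mpr ?_
    have := h2.mul ha₄
    rwa [add_zero] at this
  have hb₆ : Rat.padicValuation 2 W.b₆ ≤ 1 := by
    rw [N.b₆, map_zero]; exact zero_le_one
  have hb₈ : Rat.padicValuation 2 W.b₈ ≤ 1 := by
    rw [N.b₈]
    refine padicValuation_le_one_iff.mpr ?_
    have := (ha₄.sq).neg
    rwa [add_zero] at this
  have hpodd : ¬ (2 : ℤ) ∣ (p : ℤ) := by
    intro h2p
    have h2p' : 2 ∣ p := by exact_mod_cast h2p
    have := (Nat.prime_dvd_prime_iff_eq Nat.prime_two hp).mp h2p'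
    omega
  have hvp : Rat.padicValuation 2 (p : ℚ) = 1 := by
    have := twoVal_ex_of_odd hpodd
    rw [Int.cast_natCast] at this
    exact padicValuation_eq_one_iff.mpr this
  -- the kernel of reduction has no `p`-torsion
  have hG1 : ∀ Y : W.Point, p • Y = 0 → InG1 (Rat.padicValuation 2) Y → Y = 0 :=
    fun Y hY hG => inG1_torsion_free (Rat.padicValuation 2) hb₂ hb₄ hb₆ hb₈ hvp hG hY
  -- small multiples of `X` are nonzero
  have hmul : ∀ j : ℕ, 0 < j → j < p → j • X ≠ 0 := by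
    intro j hj0 hjp hjX
    have hndvd : ¬ p ∣ j := fun hd => absurd (Nat.le_of_dvd hj0 hd) (not_le.mpr hjp)
    have hcop : Nat.gcd j p = 1 := by
      rw [Nat.gcd_comm]
      exact (Nat.Prime.coprime_iff_not_dvd hp).mpr hndvd
    have h1 : addOrderOf X ∣ j := addOrderOf_dvd_of_nsmul_eq_zero hjX
    have h2 : addOrderOf X ∣ p := addOrderOf_dvd_of_nsmul_eq_zero hX
    have h3 : addOrderOf X ∣ Nat.gcd j p := Nat.dvd_gcd h1 h2
    rw [hcop, Nat.dvd_one] at h3
    exact hX0 (AddMonoid.addOrderOf_eq_one_iff.mp h3)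
  -- every nonzero `p`-torsion point has a unit `x`-coordinate
  have hunit : ∀ Y : W.Point, p • Y = 0 → Y ≠ 0 → twoVal.Ex (px Y) 0 := by
    intro Y hY hY0
    rcases rho2_eq_zero_imp hh (hρ Y hY) with h0 | ⟨hx0, hle⟩
    · exact absurd h0 hY0
    · refine ⟨hx0, le_antisymm hle ?_⟩
      by_contra hlt
      rw [not_le] at hlt
      exact hY0 (hG1 Y hY (Or.inr (one_lt_padicValuation_iff.mpr ⟨hx0, hlt⟩)))
  have hp2 : 2 < p := by omega
  have hp3 : 3 < p := by omega
  have h2X : (2 : ℕ) • X ≠ 0 := hmul 2 (by norm_num) hp2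
  have h3X : (3 : ℕ) • X ≠ 0 := hmul 3 (by norm_num) hp3
  have hp2X : p • ((2 : ℕ) • X) = 0 := by rw [smul_comm, hX, nsmul_zero]
  have hp3X : p • ((3 : ℕ) • X) = 0 := by rw [smul_comm, hX, nsmul_zero]
  have e1 := hunit X hX hX0
  have e2 := hunit _ hp2X h2X
  have e3 := hunit _ hp3X h3X
  have hadd : (2 : ℕ) • X + X = (3 : ℕ) • X := (succ_nsmul X 2).symm
  have hsub : (2 : ℕ) • X - X = X := by rw [two_nsmul]; abel
  by_cases hx : px ((2 : ℕ) • X) = px X
  · rcases eq_or_eq_neg_of_px_eq h2X hX0 hx with h | h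
    · rw [two_nsmul] at h
      exact hX0 (by simpa using h)
    · apply h3X
      rw [← hadd, h, neg_add_cancel]
  · have hprod := N.px_prod h2X hX0 hx
    rw [hadd, hsub] at hprod
    have hd0 : px ((2 : ℕ) • X) - px X ≠ 0 := sub_ne_zero.mpr hx
    have hd : 0 < twoVal.w (px ((2 : ℕ) • X) - px X) := (twoVal_gt_sub e2 e1).lt_of_ne hd0
    have hD := (ex_of_ne (V := twoVal) hd0).sq
    have hR : twoVal.Ex ((px ((2 : ℕ) • X) * px X - W.a₄) ^ 2) (0 + 0 + (0 + 0)) :=
      ((e2.mul e1).sub_gt (C.ha₄.gt' (by linarith))).sq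
    have hL := (e3.mul e1).mul hD
    rw [hprod] at hL
    have := hL.unique hR
    linarith

end Fermat.Agent.S13R
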