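import Fermat.Agent.S13.H65.Rho2
import Fermat.Agent.S05.H75.KerRed

/-!
# S13, piece (R), part 1: a Weierstrass curve over `ℚ` with a node at `(0,0)` modulo `2`
whose discriminant valuation is prime to `p` has no rational point of order `p`

Setting: `W` over `ℚ` with `a₃ = a₆ = 0`, `b₂` a `2`-adic unit, `v₂(a₄) = h > 0` with
`4 + h = p k` (`p ≥ 5` prime).  Then `W(ℚ)[p] = 0`.
-/

set_option autoImplicit false

namespace Fermat.Agent.S13R

open WeierstrassCurve S05H65 S05H65.AVal S13H65 S05H75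

/-- The `2`-adic additive valuation on `ℚ`. -/
noncomputable def twoVal : AVal ℚ ℤ where
  w := padicValRat 2
  w_mul' _ _ hx hy := padicValRat.mul hx hy
  w_add' _ _ _ _ hxy := padicValRat.min_le_padicValRat_add hxy

lemma twoVal_w (x : ℚ) : twoVal.w x = padicValRat 2 x := rfl

/-- Integers have nonnegative valuation. -/
lemma twoVal_ge_intCast (n : ℤ) : twoVal.Ge (n : ℚ) 0 := by
  by_cases hn : (n : ℚ) = 0
  · exact Or.inl hn
  · refine Or.inr ?_
    rw [twoVal_w, padicValRat.of_int]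
    exact Int.natCast_nonneg _

lemma twoVal_ex_two : twoVal.Ex (2 : ℚ) 1 := by
  refine ⟨two_ne_zero, ?_⟩
  rw [twoVal_w]
  have : (2 : ℚ) = ((2 : ℕ) : ℚ) := by norm_num
  rw [this, padicValRat.self (by norm_num)]

/-- Odd integers are units. -/
lemma twoVal_ex_of_odd {n : ℤ} (hn : ¬ (2 : ℤ) ∣ n) : twoVal.Ex (n : ℚ) 0 := by
  have hn0 : n ≠ 0 := by rintro rfl; exact hn (dvd_zero _)
  refine ⟨by exact_mod_cast hn0, ?_⟩
  rw [twoVal_w, padicValRat.of_int]
  have : padicValInt 2 n = 0 := padicValInt.eq_zero_of_not_dvd (by exact_mod_cast hn)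
  rw [this]; rfl

/-- Even integers have positive valuation. -/
lemma twoVal_gt_of_even {n : ℤ} (hn : (2 : ℤ) ∣ n) : twoVal.Gt (n : ℚ) 0 := by
  obtain ⟨m, rfl⟩ := hn
  have h1 := twoVal_ex_two.gt' (show (0 : ℤ) < 1 by norm_num)
  have := h1.mul_ge (twoVal_ge_intCast m)
  rw [add_zero] at this
  push_cast
  exact this

/-- A rational `2`-adic unit is congruent to `1` modulo `2`. -/
lemma twoVal_gt_sub_one {x : ℚ} (hx : twoVal.Ex x 0) : twoVal.Gt (x - 1) 0 := by
  have hden : (x.den : ℚ) ≠ 0 := by exact_mod_cast x.den_ne_zero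
  have hnum : (x.num : ℚ) ≠ 0 := by
    intro h
    have : x = 0 := by
      rw [← Rat.num_div_den x, h, zero_div]
    exact hx.1 this
  have hxe : x = (x.num : ℚ) / (x.den : ℚ) := (Rat.num_div_den x).symm
  -- valuations of numerator and denominator agree
  have hw : twoVal.w (x.num : ℚ) = twoVal.w ((x.den : ℤ) : ℚ) := by
    have h1 := twoVal.w_div hnum (show ((x.den : ℤ) : ℚ) ≠ 0 by exact_mod_cast x.den_ne_zero)
    have h2 : (x.num : ℚ) / ((x.den : ℤ) : ℚ) = x := by
      rw [Int.cast_natCast]; exact Rat.num_div_den x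
    rw [h2, hx.2] at h1
    linarith
  -- both are odd
  have hodd_num : ¬ (2 : ℤ) ∣ x.num := by
    intro h2n
    have h2d : (2 : ℤ) ∣ (x.den : ℤ) := by
      by_contra h2d
      have e1 := (twoVal_ex_of_odd h2d).2
      have e2 := (twoVal_gt_of_even h2n).lt_of_ne hnum
      rw [hw, e1] at e2
      exact lt_irrefl _ e2
    have hcop : IsCoprime x.num (x.den : ℤ) := by
      rw [Int.isCoprime_iff_gcd_eq_one]
      exact x.reduced
    have := hcop.isUnit_of_dvd' h2n h2d
    rw [Int.isUnit_iff] at this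
    omega
  have hodd_den : ¬ (2 : ℤ) ∣ (x.den : ℤ) := by
    intro h2d
    have e1 := (twoVal_ex_of_odd hodd_num).2
    have e2 := (twoVal_gt_of_even h2d).lt_of_ne
      (show ((x.den : ℤ) : ℚ) ≠ 0 by exact_mod_cast x.den_ne_zero)
    rw [← hw, e1] at e2
    exact lt_irrefl _ e2
  have heven : (2 : ℤ) ∣ x.num - (x.den : ℤ) := by omega
  have h3 : x - 1 = ((x.num - (x.den : ℤ) : ℤ) : ℚ) / (((x.den : ℤ) : ℤ) : ℚ) := by
    rw [Int.cast_sub, sub_div, Int.cast_natCast, div_self hden, Rat.num_div_den]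
  rw [h3]
  have := (twoVal_gt_of_even heven).div (twoVal_ex_of_odd hodd_den)
  rwa [sub_zero] at this

/-- Two rational `2`-adic units are congruent modulo `2`. -/
lemma twoVal_gt_sub {x y : ℚ} (hx : twoVal.Ex x 0) (hy : twoVal.Ex y 0) :
    twoVal.Gt (x - y) 0 := by
  have := (twoVal_gt_sub_one hx).sub (twoVal_gt_sub_one hy)
  rwa [show x - 1 - (y - 1) = x - y by ring] at this

/-! ### Link with the multiplicative `2`-adic valuation -/


lemma padicValuation_of_ne {x : ℚ} (hx : x ≠ 0) :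
    Rat.padicValuation 2 x = WithZero.exp (-padicValRat 2 x) := by
  simp [Rat.padicValuation, hx]

lemma one_lt_padicValuation_iff {x : ℚ} :
    1 < Rat.padicValuation 2 x ↔ x ≠ 0 ∧ twoVal.w x < 0 := by
  by_cases hx : x = 0
  · simp [hx]
  · rw [padicValuation_of_ne hx, twoVal_w, ← WithZero.exp_zero, WithZero.exp_lt_exp]
    simp [hx]

lemma padicValuation_le_one_iff {x : ℚ} :
    Rat.padicValuation 2 x ≤ 1 ↔ twoVal.Ge x 0 := by
  unfold AVal.Ge
  by_cases hx : x = 0
  · simp [hx]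
  · rw [padicValuation_of_ne hx, twoVal_w, ← WithZero.exp_zero, WithZero.exp_le_exp]
    simp [hx]

lemma padicValuation_eq_one_iff {x : ℚ} :
    Rat.padicValuation 2 x = 1 ↔ twoVal.Ex x 0 := by
  unfold AVal.Ex
  by_cases hx : x = 0
  · simp [hx]
  · rw [padicValuation_of_ne hx, twoVal_w, ← WithZero.exp_zero, WithZero.exp_inj]
    simp [hx]

end Fermat.Agent.S13R
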