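import Fermat.Agent.Lib.DivPoly.Exists
import Fermat.Agent.S05.H5.FreyFacts
import Fermat.Agent.S05.H5.Galois
import Fermat.Agent.Lib.Frobenius.Exists
import Fermat.Prelude.Def_FLTPrelim_GaloisRep
import Fermat.Prelude.Def_FLTPrelim_Ramification

/-!
# S13 piece (T): the `p`-torsion of the Frey curve over `Qbar` is nontrivial, finite, of order `≤ p²`

Conditional on the in-range statement `InRange` (helper30) and on the existence of a `2`-torsion
`x`-coordinate at which `preΨ'_p` is a unit (helper70).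
-/

set_option autoImplicit false

namespace Fermat.Agent.S13T

open WeierstrassCurve WeierstrassCurve.Affine Polynomial Fermat.Agent.DivPoly

local notation "Qb" => AlgebraicClosure ℚ

/-- (T-a) for the Frey curve. -/
theorem frey_torsion_finite_card_le (P : FreyPackage)
    (hI : InRange (F := Qb) (P.freyCurve⁄Qb)) :
    Finite (Submodule.torsionBy ℤ (P.freyCurve⁄Qb).Point P.p) ∧
      Nat.card (Submodule.torsionBy ℤ (P.freyCurve⁄Qb).Point P.p) ≤ P.p ^ 2 :=
  card_torsionBy_le hI P.pp (by have := P.hp5; omega)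

/-- (T-b) for the Frey curve, given a unit value of `preΨ'_p` at an integral point. -/
theorem frey_exists_torsion (P : FreyPackage)
    (hI : InRange (F := Qb) (P.freyCurve⁄Qb))
    (A : ValuationSubring Qb) (hA : A.LiesOverPrime P.p)
    (c : Qb) (hc : c ∈ A) (hval : A.valuation (((P.freyCurve⁄Qb).preΨ' P.p).eval c) = 1) :
    ∃ X : (P.freyCurve⁄Qb).Point, X ≠ 0 ∧ P.p • X = 0 ∧ 1 < A.valuation (S05H65.px X) := by
  have hvp : A.valuation ((P.p : ℕ) : Qb) < 1 := A.mem_nonunits_iff.mp hA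
  obtain ⟨ha₁, ha₂, ha₃, ha₄, ha₆⟩ := S05H5.frey_coeff_le_one (K := Qb) P A.valuation
  obtain ⟨hb₂, hb₄, hb₆, hb₈⟩ := S05H5.v_b_le_one A.valuation (P.freyCurve⁄Qb) ha₁ ha₂ ha₃ ha₄ ha₆
  have hΔ : (P.freyCurve⁄Qb).Δ ≠ 0 := S05H5.frey_Δ_ne_zero_K P
  exact exists_torsion_of_unit_value A.valuation hb₂ hb₄ hb₆ hb₈ hΔ hI P.pp
    (by have := P.hp5; omega) hvp c ((A.valuation_le_one_iff c).mpr hc) hval

/-- (T-b) `E[p] ≠ 0` for the Frey curve. -/
theorem frey_torsion_nontrivial (P : FreyPackage)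
    (hI : InRange (F := Qb) (P.freyCurve⁄Qb))
    (hunit : ∀ A : ValuationSubring Qb, A.LiesOverPrime P.p →
      ∃ c : Qb, c ∈ A ∧ A.valuation (((P.freyCurve⁄Qb).preΨ' P.p).eval c) = 1) :
    Nontrivial (Submodule.torsionBy ℤ (P.freyCurve⁄Qb).Point P.p) := by
  obtain ⟨A, hA⟩ := Fermat.Agent.FrobExists.exists_valuationSubring_liesOver P.p P.pp
  obtain ⟨c, hc, hval⟩ := hunit A hA
  obtain ⟨X, hX0, hpX, -⟩ := frey_exists_torsion P hI A hA c hc hval
  have hmem : X ∈ Submodule.torsionBy ℤ (P.freyCurve⁄Qb).Point P.p := by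
    rw [Submodule.mem_torsionBy_iff, natCast_zsmul]
    exact hpX
  refine ⟨⟨⟨X, hmem⟩, 0, ?_⟩⟩
  intro h
  exact hX0 (congrArg Subtype.val h)

end Fermat.Agent.S13T
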