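import Mathlib
import Fermat.Prelude.Def_FLTPrelim_Ramification
import Fermat.Agent.S13.EisensteinAtP

/-!
# S13 (T-b), pieces (b2) + (b3)

(b2) If `Ψ₂Sq(c) = 0` then for odd `n`, `preΨ'_n(c) = ± Ψ₃(c)^e` for some `e`.

(b3) a 2-torsion abscissa of the Frey curve where `Ψ₃` is a unit at `p`:

For a valuation subring `A` of `Qb` over `p = P.p`, one of the three roots `c` of
`Ψ₂Sq = 4 X (X - a^p/4) (X + b^p/4)` has `Ψ₃(c)` a unit of `A`:
`Ψ₃(0) = -((ab)^p/16)^2`, `Ψ₃(a^p/4) = -((ac)^p/16)^2`, `Ψ₃(-b^p/4) = -((bc)^p/16)^2`,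
and `p` divides at most one of `a, b, c`.
-/

namespace Fermat.Agent.S13Tb

open Polynomial WeierstrassCurve

local notation "Qb" => AlgebraicClosure ℚ

/-! ### (b2): odd division polynomials at a 2-torsion abscissa -/

section b2
variable {R : Type*} [CommRing R] (W : WeierstrassCurve R)

theorem preΨ'_eval_of_Ψ₂Sq_eq_zero {c : R} (hc : W.Ψ₂Sq.eval c = 0) {n : ℕ} (hn : Odd n) :
    ∃ e : ℕ, (W.preΨ' n).eval c = (W.Ψ₃.eval c) ^ e ∨ (W.preΨ' n).eval c = -(W.Ψ₃.eval c) ^ e := by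
  induction n using Nat.strong_induction_on with
  | _ n ih =>
    obtain ⟨k, rfl⟩ := hn
    rcases k with _ | _ | m
    · exact ⟨0, Or.inl (by simp)⟩
    · exact ⟨1, Or.inl (by simp)⟩
    · have hrec := W.preΨ'_odd m
      have hidx : 2 * (m + 1 + 1) + 1 = 2 * (m + 2) + 1 := by ring
      rw [hidx, hrec]
      by_cases hm : Even m
      · -- the first term dies
        have h1 : Odd (m + 1) := hm.add_one
        have h3 : Odd (m + 3) := by
          have : m + 3 = (m + 1) + 2 := by ring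
          rw [this]; exact h1.add_even even_two
        obtain ⟨e1, he1⟩ := ih (m + 1) (by omega) h1
        obtain ⟨e3, he3⟩ := ih (m + 3) (by omega) h3
        simp only [if_pos hm, eval_sub, eval_mul, eval_pow, hc, mul_one]
        rcases he1 with he1 | he1 <;> rcases he3 with he3 | he3
        · exact ⟨e1 + 3 * e3, Or.inr (by rw [he1, he3]; ring)⟩
        · exact ⟨e1 + 3 * e3, Or.inl (by rw [he1, he3]; ring)⟩
        · exact ⟨e1 + 3 * e3, Or.inl (by rw [he1, he3]; ring)⟩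
        · exact ⟨e1 + 3 * e3, Or.inr (by rw [he1, he3]; ring)⟩
      · have hm' : Odd m := Nat.not_even_iff_odd.mp hm
        have h2 : Odd (m + 2) := hm'.add_even even_two
        have h4 : Odd (m + 4) := hm'.add_even (by decide)
        obtain ⟨e2, he2⟩ := ih (m + 2) (by omega) h2
        obtain ⟨e4, he4⟩ := ih (m + 4) (by omega) h4
        simp only [if_neg hm, eval_sub, eval_mul, eval_pow, hc, mul_one]
        rcases he2 with he2 | he2 <;> rcases he4 with he4 | he4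
        · exact ⟨e4 + 3 * e2, Or.inl (by rw [he2, he4]; ring)⟩
        · exact ⟨e4 + 3 * e2, Or.inr (by rw [he2, he4]; ring)⟩
        · exact ⟨e4 + 3 * e2, Or.inr (by rw [he2, he4]; ring)⟩
        · exact ⟨e4 + 3 * e2, Or.inl (by rw [he2, he4]; ring)⟩

end b2

/-! ### (b3): a 2-torsion abscissa of the Frey curve where `Ψ₃` is a unit at `p` -/

/-- An integer prime to `p` has valuation one. -/
theorem valuation_intCast_eq_one {p : ℕ} (hp : p.Prime) (A : ValuationSubring Qb)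
    (hA : A.LiesOverPrime p) {n : ℤ} (hn : ¬ (p : ℤ) ∣ n) : A.valuation (n : Qb) = 1 := by
  have h1 : A.valuation (n : Qb) ≤ 1 :=
    (A.valuation_le_one_iff _).mpr (S13Np.intCast_mem_valuationSubring A n)
  have h2 : ¬ A.valuation (n : Qb) < 1 := by
    intro h
    exact hn ((S13Np.intCast_mem_nonunits_iff hp A hA n).mp
      ((ValuationSubring.mem_nonunits_iff (A := A)).mpr h))
  exact le_antisymm h1 (not_lt.mp h2)

/-- `eval` of a mapped polynomial at a mapped point. -/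
theorem eval_map_algebraMap_apply (f : ℚ[X]) (r : ℚ) :
    (f.map (algebraMap ℚ Qb)).eval (algebraMap ℚ Qb r) = algebraMap ℚ Qb (f.eval r) := by
  rw [eval_map, eval₂_at_apply]

section frey

variable (P : FreyPackage)

theorem frey_hFLT_rat : (P.a : ℚ) ^ P.p + (P.b : ℚ) ^ P.p = (P.c : ℚ) ^ P.p := by
  exact_mod_cast P.hFLT

theorem frey_Ψ₂Sq_eval (r : ℚ) :
    P.freyCurve.Ψ₂Sq.eval r
      = 4 * r * (r - (P.a : ℚ) ^ P.p / 4) * (r + (P.b : ℚ) ^ P.p / 4) := by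
  simp only [WeierstrassCurve.Ψ₂Sq, WeierstrassCurve.b₂, WeierstrassCurve.b₄,
    WeierstrassCurve.b₆, FreyPackage.freyCurve, eval_add, eval_mul, eval_pow, eval_C, eval_X]
  ring

theorem frey_Ψ₃_eval (r : ℚ) :
    P.freyCurve.Ψ₃.eval r
      = 3 * r ^ 4 + ((P.b : ℚ) ^ P.p - (P.a : ℚ) ^ P.p) * r ^ 3
        - 3 * ((P.a : ℚ) ^ P.p * (P.b : ℚ) ^ P.p / 8) * r ^ 2
        - ((P.a : ℚ) ^ P.p * (P.b : ℚ) ^ P.p / 16) ^ 2 := by
  simp only [WeierstrassCurve.Ψ₃, WeierstrassCurve.b₂, WeierstrassCurve.b₄,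
    WeierstrassCurve.b₆, WeierstrassCurve.b₈, FreyPackage.freyCurve, eval_add, eval_mul,
    eval_pow, eval_C, eval_X, eval_ofNat]
  ring

theorem frey_Ψ₃_eval_zero :
    P.freyCurve.Ψ₃.eval 0 = -(((P.a * P.b : ℤ) : ℚ) ^ P.p / 16) ^ 2 := by
  rw [frey_Ψ₃_eval]; push_cast; ring

theorem frey_Ψ₃_eval_a :
    P.freyCurve.Ψ₃.eval ((P.a : ℚ) ^ P.p / 4) = -(((P.a * P.c : ℤ) : ℚ) ^ P.p / 16) ^ 2 := by
  rw [frey_Ψ₃_eval]; push_cast
  rw [mul_pow, ← frey_hFLT_rat P]; ring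

theorem frey_Ψ₃_eval_b :
    P.freyCurve.Ψ₃.eval (-((P.b : ℚ) ^ P.p / 4)) = -(((P.b * P.c : ℤ) : ℚ) ^ P.p / 16) ^ 2 := by
  rw [frey_Ψ₃_eval]; push_cast
  rw [mul_pow, ← frey_hFLT_rat P]; ring

/-- valuation of `-(n^p/16)^2` for an integer `n` prime to `p`. -/
theorem valuation_neg_sq_eq_one {p : ℕ} (hp : p.Prime) (hp5 : 5 ≤ p) (A : ValuationSubring Qb)
    (hA : A.LiesOverPrime p) {n : ℤ} (hn : ¬ (p : ℤ) ∣ n) (k : ℕ) :
    A.valuation (algebraMap ℚ Qb (-(((n : ℤ) : ℚ) ^ k / 16) ^ 2)) = 1 := by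
  have h16 : A.valuation ((16 : ℤ) : Qb) = 1 := by
    apply valuation_intCast_eq_one hp A hA
    intro h
    have h2 : (p : ℤ) ∣ 2 ^ 4 := by simpa using h
    have h3 : (p : ℤ) ∣ 2 := (Nat.prime_iff_prime_int.mp hp).dvd_of_dvd_pow h2
    have h4 : p ∣ 2 := by exact_mod_cast h3
    have := Nat.le_of_dvd (by norm_num) h4
    omega
  have hn1 : A.valuation ((n : ℤ) : Qb) = 1 := valuation_intCast_eq_one hp A hA hn
  have hcast : algebraMap ℚ Qb (-(((n : ℤ) : ℚ) ^ k / 16) ^ 2)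
      = -(((n : ℤ) : Qb) ^ k / ((16 : ℤ) : Qb)) ^ 2 := by
    simp only [map_neg, map_pow, map_div₀, map_intCast, map_ofNat]
    push_cast; rfl
  rw [hcast, Valuation.map_neg, map_pow, map_div₀, map_pow, hn1, h16]
  simp

theorem frey_exists_two_torsion_unit (A : ValuationSubring Qb) (hA : A.LiesOverPrime P.p) :
    ∃ c : Qb, c ∈ A ∧ (P.freyCurve⁄Qb).Ψ₂Sq.eval c = 0 ∧
      A.valuation ((P.freyCurve⁄Qb).Ψ₃.eval c) = 1 := by
  have hp := P.pp
  have hpint : Prime (P.p : ℤ) := Nat.prime_iff_prime_int.mp hp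
  have hΨ₂ : (P.freyCurve⁄Qb).Ψ₂Sq = P.freyCurve.Ψ₂Sq.map (algebraMap ℚ Qb) := by
    rw [WeierstrassCurve.baseChange, WeierstrassCurve.map_Ψ₂Sq]
  have hΨ₃ : (P.freyCurve⁄Qb).Ψ₃ = P.freyCurve.Ψ₃.map (algebraMap ℚ Qb) := by
    rw [WeierstrassCurve.baseChange, WeierstrassCurve.map_Ψ₃]
  have h4 : A.valuation ((4 : ℤ) : Qb) = 1 := by
    apply valuation_intCast_eq_one hp A hA
    intro h
    have h2 : (P.p : ℤ) ∣ 2 ^ 2 := by simpa using h
    have h3 : (P.p : ℤ) ∣ 2 := hpint.dvd_of_dvd_pow h2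
    have h4 : P.p ∣ 2 := by exact_mod_cast h3
    have := Nat.le_of_dvd (by norm_num) h4
    have := P.hp5
    omega
  have hmemdiv : ∀ n : ℤ, algebraMap ℚ Qb ((n : ℚ) ^ P.p / 4) ∈ A := by
    intro n
    rw [← A.valuation_le_one_iff]
    have hcast : algebraMap ℚ Qb ((n : ℚ) ^ P.p / 4) = ((n : ℤ) : Qb) ^ P.p / ((4 : ℤ) : Qb) := by
      simp only [map_pow, map_div₀, map_intCast, map_ofNat]
      push_cast; rfl
    rw [hcast, map_div₀, map_pow, h4, div_one]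
    exact pow_le_one₀ zero_le
      ((A.valuation_le_one_iff _).mpr (S13Np.intCast_mem_valuationSubring A n))
  -- p divides at most one of a, b, c
  have hab : ¬ ((P.p : ℤ) ∣ P.a ∧ (P.p : ℤ) ∣ P.b) := by
    rintro ⟨h1, h2⟩
    have h := dvd_gcd h1 h2
    rw [P.hgcdab] at h
    exact hpint.not_dvd_one h
  have hac : ¬ ((P.p : ℤ) ∣ P.a ∧ (P.p : ℤ) ∣ P.c) := by
    rintro ⟨h1, h2⟩
    have h := dvd_gcd h1 h2
    rw [P.hgcdac] at h
    exact hpint.not_dvd_one h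
  have hbc : ¬ ((P.p : ℤ) ∣ P.b ∧ (P.p : ℤ) ∣ P.c) := by
    rintro ⟨h1, h2⟩
    have h := dvd_gcd h1 h2
    rw [P.hgcdbc] at h
    exact hpint.not_dvd_one h
  by_cases ha : (P.p : ℤ) ∣ P.a
  · -- use c = -b^p/4, Ψ₃ = -((bc)^p/16)^2
    have hb : ¬ (P.p : ℤ) ∣ P.b := fun h => hab ⟨ha, h⟩
    have hc : ¬ (P.p : ℤ) ∣ P.c := fun h => hac ⟨ha, h⟩
    have hbcn : ¬ (P.p : ℤ) ∣ P.b * P.c := fun h => (hpint.dvd_or_dvd h).elim hb hc
    refine ⟨algebraMap ℚ Qb (-((P.b : ℚ) ^ P.p / 4)), ?_, ?_, ?_⟩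
    · rw [map_neg]; exact A.neg_mem _ (hmemdiv P.b)
    · rw [hΨ₂, eval_map_algebraMap_apply, frey_Ψ₂Sq_eval]
      simp
    · rw [hΨ₃, eval_map_algebraMap_apply, frey_Ψ₃_eval_b]
      exact valuation_neg_sq_eq_one hp P.hp5 A hA hbcn P.p
  · by_cases hb : (P.p : ℤ) ∣ P.b
    · -- use c = a^p/4, Ψ₃ = -((ac)^p/16)^2
      have hc : ¬ (P.p : ℤ) ∣ P.c := fun h => hbc ⟨hb, h⟩
      have hacn : ¬ (P.p : ℤ) ∣ P.a * P.c := fun h => (hpint.dvd_or_dvd h).elim ha hc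
      refine ⟨algebraMap ℚ Qb ((P.a : ℚ) ^ P.p / 4), hmemdiv P.a, ?_, ?_⟩
      · rw [hΨ₂, eval_map_algebraMap_apply, frey_Ψ₂Sq_eval]
        simp
      · rw [hΨ₃, eval_map_algebraMap_apply, frey_Ψ₃_eval_a]
        exact valuation_neg_sq_eq_one hp P.hp5 A hA hacn P.p
    · -- use c = 0, Ψ₃ = -((ab)^p/16)^2
      have habn : ¬ (P.p : ℤ) ∣ P.a * P.b := fun h => (hpint.dvd_or_dvd h).elim ha hb
      refine ⟨algebraMap ℚ Qb 0, ?_, ?_, ?_⟩
      · rw [map_zero]; exact A.zero_mem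
      · rw [hΨ₂, eval_map_algebraMap_apply, frey_Ψ₂Sq_eval]
        simp
      · rw [hΨ₃, eval_map_algebraMap_apply, frey_Ψ₃_eval_zero]
        exact valuation_neg_sq_eq_one hp P.hp5 A hA habn P.p

end frey

end Fermat.Agent.S13Tb
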