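import Fermat.Agent.S13.TorsionT
import Fermat.Agent.S13.TwoTorsUnit

/-!
# S13 piece (T): `E[p] ≠ 0` for the Frey curve, conditional only on the in-range statement
-/

set_option autoImplicit false

namespace Fermat.Agent.S13T

open WeierstrassCurve WeierstrassCurve.Affine Polynomial Fermat.Agent.DivPoly

local notation "Qb" => AlgebraicClosure ℚ

/-- For every `A` over `p` there is an integral `c` at which `preΨ'_p` is a unit. -/
theorem frey_exists_unit_value (P : FreyPackage) (A : ValuationSubring Qb)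
    (hA : A.LiesOverPrime P.p) :
    ∃ c : Qb, c ∈ A ∧ A.valuation (((P.freyCurve⁄Qb).preΨ' P.p).eval c) = 1 := by
  obtain ⟨c, hc, h2, h3⟩ := Fermat.Agent.S13Tb.frey_exists_two_torsion_unit P A hA
  refine ⟨c, hc, ?_⟩
  obtain ⟨e, he | he⟩ :=
    Fermat.Agent.S13Tb.preΨ'_eval_of_Ψ₂Sq_eq_zero (P.freyCurve⁄Qb) h2 P.hp_odd
  · rw [he, map_pow, h3, one_pow]
  · rw [he, Valuation.map_neg, map_pow, h3, one_pow]

/-- (T-b) `E[p] ≠ 0` for the Frey curve (given the in-range statement). -/
theorem frey_torsion_nontrivial_of_inRange (P : FreyPackage)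
    (hI : InRange (F := Qb) (P.freyCurve⁄Qb)) :
    Nontrivial (Submodule.torsionBy ℤ (P.freyCurve⁄Qb).Point P.p) :=
  frey_torsion_nontrivial P hI (fun A hA => frey_exists_unit_value P A hA)

/-- For every `A` over `p` there is a nonzero `p`-torsion point in the kernel of reduction. -/
theorem frey_exists_torsion_inG1 (P : FreyPackage)
    (hI : InRange (F := Qb) (P.freyCurve⁄Qb))
    (A : ValuationSubring Qb) (hA : A.LiesOverPrime P.p) :
    ∃ X : (P.freyCurve⁄Qb).Point, X ≠ 0 ∧ P.p • X = 0 ∧ 1 < A.valuation (S05H65.px X) := by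
  obtain ⟨c, hc, hval⟩ := frey_exists_unit_value P A hA
  exact frey_exists_torsion P hI A hA c hc hval

end Fermat.Agent.S13T
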