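import Mathlib
import Fermat.Prelude.Def_FLTPrelim_Ramification
import Fermat.Agent.S13.TwoTorsUnit

/-!
# S13 (T-b): the black box `hunit` for `frey_torsion_nontrivial`

For every valuation subring `A` of `Qb` over `p = P.p` there is `c ∈ A` with
`preΨ'_p(c)` a unit of `A` (combination of (b2) and (b3)).
-/

namespace Fermat.Agent.S13Tb

open Polynomial WeierstrassCurve

local notation "Qb" => AlgebraicClosure ℚ

theorem frey_hunit (P : FreyPackage) :
    ∀ A : ValuationSubring Qb, A.LiesOverPrime P.p →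
      ∃ c : Qb, c ∈ A ∧ A.valuation (((P.freyCurve⁄Qb).preΨ' P.p).eval c) = 1 := by
  intro A hA
  obtain ⟨c, hcA, hc2, hc3⟩ := frey_exists_two_torsion_unit P A hA
  refine ⟨c, hcA, ?_⟩
  obtain ⟨e, he | he⟩ := preΨ'_eval_of_Ψ₂Sq_eq_zero (P.freyCurve⁄Qb) hc2 P.hp_odd
  · rw [he, map_pow, hc3, one_pow]
  · rw [he, Valuation.map_neg, map_pow, hc3, one_pow]

end Fermat.Agent.S13Tb
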