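/-
S13 wiring with the unconditional torsion count (helper25): the statement of S13 from the absence
of rational `p`-torsion (R) alone; no in-range hypothesis is needed.
-/
import Mathlib
import Fermat.Agent.S13.Final
import Fermat.Agent.S13.AtP
import Fermat.Agent.S13.CountT
import Fermat.Agent.S13.TwoFrey
import Fermat.Agent.S05

set_option autoImplicit false

namespace Fermat.Agent.S13Final

open WeierstrassCurve WeierstrassCurve.Affine WeierstrassCurve.Affine.Point

/-- S13 from (R) alone. -/
theorem s13_of_noRationalTorsion (P : FreyPackage)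
    (hR : ∀ x : Submodule.torsionBy ℤ (P.freyCurve⁄(AlgebraicClosure ℚ)).Point P.p,
      (∀ σ : AlgebraicClosure ℚ ≃ₐ[ℚ] AlgebraicClosure ℚ, σ • x = x) → x = 0)
    (hred : ¬ GaloisRepIsIrreducible (K := AlgebraicClosure ℚ) ℚ P.freyCurve P.p) :
    HasGaloisStableCofixedLine (K := AlgebraicClosure ℚ) ℚ P.freyCurve P.p :=
  s13_of_pieces P (Fermat.Agent.S13Count.frey_torsion_nontrivial P)
    (Fermat.Agent.S13Count.frey_torsion_finite P)
    (Fermat.Agent.S13Count.frey_card_torsion P).le
    (fun _ hq hq2 hqp => Fermat.Agent.S05.result P hq hq2 hqp)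
    (fun A hA σ hσ x => Fermat.Agent.S13Two.frey_inertia_two_unipotent P A hA σ hσ x)
    hR
    (fun hcard N hN hbot htop A hA =>
      Fermat.Agent.S13AtP.frey_inertia_p_dichotomy P hcard N hN hbot htop A hA)
    hred

end Fermat.Agent.S13Final
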